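import Mathlib
import Fermat.Prelude.Def_EllipticCurve_FrobeniusTrace
import Fermat.Agent.ST.Defs
import Fermat.Agent.ST.Alg
import Fermat.Agent.SS.Dict.Aut
import Fermat.Agent.SS.Geo.ChartInv
import Fermat.Agent.SS.Val.ModFrob2

/-!
# Program T (S35), package TOP : the interface of the function-level half

`M` the prime-to-`q` level, `q ∤ M`, `N = M * q`; `𝔸 ⊂ ℚ̄` over `q`, `s ∈ G_ℚ` a Frobenius lift at `𝔸`.
Over a number field `E` (finite, normal, big) : `A₀ = 𝔸 ∩ E`, `F = F_E(M q)`, `F₀ = F_E(M)`,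
`α = ssvmdIncl E M q`, `φ = ssvmfPhi E M q : F₀ → F`, `sE = ssdAut E (M q) (s|_E)`, `σ = sE * sE`.

* `sttNorm ι g` : the norm of `g : F` along an embedding `ι : F₀ →+* F`.
* `SttGeo M q 𝔸 s E t` : THE CONCRETE SIDE consumed by `st_core_of_geo` for the chart coordinate `t` :
  the two valuations (`SsvTwo`), the Frobenius lift `σ = sE²` with `Q = q²` (`StFrob`), the germs at the
  residue-rational closed points of both charts (`StGermAt`), and (G1) the toric normalisation.
* `SttGeoAt M q` : `SttGeo` at every `𝔸` over `q`, every Frobenius lift `s`, all big enough `E`, the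
  chart coordinates being the `E`-forms of ONE function `tB` of `F_ℚ̄(M q)`.
* `SttNormUp M q` : (G4) the norms along `α`, `φ` commute with the base change `F_E → F_ℚ̄`.
* `sttPT q = (X² - q²)(X² - 1)³` and `StCore M p q` : THE FUNCTION-LEVEL STATEMENT over `ℚ̄`.
-/

set_option autoImplicit false
set_option linter.unusedSectionVars false
set_option linter.unusedVariables false
set_option linter.style.haveILetI false

noncomputable section

namespace Fermat.Agent.ST

open ModularCurve AlgebraicCurve IntermediateField Polynomial Fermat.Agent.S18 Fermat.Agent.SS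

local notation "Qb" => AlgebraicClosure ℚ
local notation "GQ" => (AlgebraicClosure ℚ ≃ₐ[ℚ] AlgebraicClosure ℚ)

/-- the norm of `g : F` along an embedding `ι : K → F` -/
def sttNorm {K F : Type*} [Field K] [Field F] (ι : K →+* F) (g : F) : K :=
  letI := ι.toAlgebra
  Algebra.norm K g

/-- THE CONCRETE SIDE of Program T at the number field `E`, for the chart coordinate `t`. -/
structure SttGeo (M q : ℕ) [NeZero M] [NeZero q] (𝔸 : ValuationSubring Qb) (s : GQ)
    (E : IntermediateField ℚ Qb) [Normal ℚ E]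
    [IsDiscreteValuationRing ↥(s18dVal 𝔸 E)] [CharZero ↥(s18dVal 𝔸 E)]
    (t : modularFunctionFieldFullC E (M * q)) : Prop where
  /-- `t` is transcendental over `E` -/
  transc : Transcendental E t
  /-- `F_E(M q)` is finite over `E(t)` -/
  fin : FiniteDimensional E⟮t⟯ (modularFunctionFieldFullC E (M * q))
  /-- VAL + FROB + GERM : the two valuations, the Frobenius lift `σ = sE²`, the germs -/
  conc : ∀ (ϖ : ↥(s18dVal 𝔸 E)) (hϖ : Irreducible ϖ),
    ∃ (G : Subgroup (SemilinearAut E (modularFunctionFieldFullC E (M * q))))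
      (u₁ u₂ : modularFunctionFieldFullC E (M * q))
      (V₁ V₂ : ValuationSubring (modularFunctionFieldFullC E (M * q))),
      SsvTwo hϖ t u₁ u₂ V₁ V₂ ∧
      StFrob ϖ t V₁ V₂ (q ^ 2)
        (ssdAut E (M * q) (s.restrictNormal E) * ssdAut E (M * q) (s.restrictNormal E)) ∧
      (∀ 𝔫 : Ideal ↥(s18tInt ↥(s18dVal 𝔸 E) t), 𝔫.IsMaximal → sskPi ϖ t ∈ 𝔫 → StRes t 𝔫 →
        StGermAt ϖ t G V₁ V₂
          (ssdAut E (M * q) (s.restrictNormal E) * ssdAut E (M * q) (s.restrictNormal E)) 𝔫) ∧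
      (∀ 𝔫 : Ideal ↥(s18tInt ↥(s18dVal 𝔸 E) t⁻¹), 𝔫.IsMaximal → sskPi ϖ t⁻¹ ∈ 𝔫 →
        ssglTinv (A := ↥(s18dVal 𝔸 E)) t ∈ 𝔫 → StRes t⁻¹ 𝔫 →
        StGermAt ϖ t⁻¹ G V₁ V₂
          (ssdAut E (M * q) (s.restrictNormal E) * ssdAut E (M * q) (s.restrictNormal E)) 𝔫)
  /-- (G1) THE TORIC NORMALISATION : if `f` is a unit of `P_(ϖ) = V₁ ∩ V₂` whose norms along `α` and
  `φ` are `n`-th powers (`n ≠ 0`), then `σ f ≡ f Uⁿ mod ϖ P_(ϖ)` for some `U ∈ P_(ϖ)`. -/
  g1 : ∀ (ϖ : ↥(s18dVal 𝔸 E)) (hϖ : Irreducible ϖ) (n : ℕ), n ≠ 0 →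
    ∀ f : modularFunctionFieldFullC E (M * q),
    f ∈ s18tIntLoc ↥(s18dVal 𝔸 E) t (C ϖ) (s18t_prime_C hϖ) →
    f⁻¹ ∈ s18tIntLoc ↥(s18dVal 𝔸 E) t (C ϖ) (s18t_prime_C hϖ) →
    ∀ h h' : modularFunctionFieldFullC E M,
      sttNorm (ssvmdIncl E M q).toRingHom f = h ^ n → sttNorm (ssvmfPhi E M q) f = h' ^ n →
      ∃ U : modularFunctionFieldFullC E (M * q),
        U ∈ s18tIntLoc ↥(s18dVal 𝔸 E) t (C ϖ) (s18t_prime_C hϖ) ∧
        S18DvdGauss hϖ t
          (ssdAut E (M * q) (s.restrictNormal E) • (ssdAut E (M * q) (s.restrictNormal E) • f) -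
            f * U ^ n)

/-- the concrete side at every `𝔸` over `q` and every Frobenius lift `s` at `𝔸`, for all big enough
number fields `E`; the chart coordinates are the `E`-forms of one function `tB ∈ F_ℚ̄(M q)`. -/
def SttGeoAt (M q : ℕ) [NeZero M] [NeZero q] : Prop :=
  ∀ 𝔸 : ValuationSubring Qb, 𝔸.LiesOverPrime q → ∀ s : GQ, 𝔸.IsFrobeniusAt s q →
    ∃ (tB : modularFunctionFieldBar (M * q)) (E₁ : IntermediateField ℚ Qb)
      (_ : FiniteDimensional ℚ E₁),
      ∀ (E : IntermediateField ℚ Qb) [FiniteDimensional ℚ E] [Normal ℚ E]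
        [IsDiscreteValuationRing ↥(s18dVal 𝔸 E)] [CharZero ↥(s18dVal 𝔸 E)], E₁ ≤ E →
        ∃ t : modularFunctionFieldFullC E (M * q), ssdUp E (M * q) t = tB ∧ SttGeo M q 𝔸 s E t

/-- (G4) the norms along `α` and `φ` commute with the base change `F_E → F_ℚ̄`. -/
def SttNormUp (M q : ℕ) [NeZero M] [NeZero q] : Prop :=
  ∀ (E : IntermediateField ℚ Qb) (g : modularFunctionFieldFullC E (M * q)),
    ssdUp E M (sttNorm (ssvmdIncl E M q).toRingHom g) =
        sttNorm (heckeAlphaBar Qb M q).toRingHom (ssdUp E (M * q) g) ∧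
      ssdUp E M (sttNorm (ssvmfPhi E M q) g) =
        sttNorm (heckeBetaBar Qb M q).toRingHom (ssdUp E (M * q) g)

/-- `P_T = (X² - q²)(X² - 1)³` -/
def sttPT (q : ℕ) : ℤ[X] := (X ^ 2 - C ((q : ℤ) ^ 2)) * (X ^ 2 - 1) ^ 3

/-- THE FUNCTION-LEVEL CORE of Program T : for a Frobenius lift `s` at `𝔸 | q` and a function `g` of
level `M q` with `p^k`-divisible divisor whose norms along `α` and `φ` are `p^k`-th powers,
`g^{P_T(s)}` is a `p^k`-th power. -/
def StCore (M : ℕ) [NeZero M] (p q : ℕ) [NeZero q] : Prop :=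
  ∀ 𝔸 : ValuationSubring Qb, 𝔸.LiesOverPrime q → ∀ s : GQ, 𝔸.IsFrobeniusAt s q →
    ∀ (k : ℕ) (g : (modularFunctionFieldBar (M * q))ˣ),
      (∀ P : Place Qb (modularFunctionFieldBar (M * q)),
        ((p ^ k : ℕ) : ℤ) ∣ P.ord (g : modularFunctionFieldBar (M * q))) →
      ∀ v v' : modularFunctionFieldBar M,
        sttNorm (heckeAlphaBar Qb M q).toRingHom (g : modularFunctionFieldBar (M * q)) =
          v ^ (p ^ k) →
        sttNorm (heckeBetaBar Qb M q).toRingHom (g : modularFunctionFieldBar (M * q)) =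
          v' ^ (p ^ k) →
        ∃ y : modularFunctionFieldBar (M * q),
          y ^ (p ^ k) =
            ((staPow (arithmeticGalois (modularFunctionFieldFull (M * q)) s) (sttPT q) g :
              (modularFunctionFieldBar (M * q))ˣ) : modularFunctionFieldBar (M * q))

end Fermat.Agent.ST
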