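import Mathlib
import Fermat.Agent.SS.Dict.Aut
import Fermat.Agent.S18.Core.Spec
import Fermat.Agent.S18.Core.Descend
import Fermat.Agent.ST.Up

/-!
# Program T (S35), package TOP : change of the number field `E ⊆ E'`

* `sttcIncl h : E →+* E'`, `sttcJ 𝔸 h : 𝔸 ∩ E →+* 𝔸 ∩ E'` the inclusions;
* `sttcIota h N : F_E(N) →+* F_{E'}(N)` the coefficientwise base change, with
  `ssdUp E' N (sttcIota h N x) = ssdUp E N x` (`sttc_up_iota`) and compatibility with the structure
  maps of `𝔸 ∩ E`, `𝔸 ∩ E'` (`sttcIota_compat`);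
* `sttc_unif_dvd` : a uniformiser of `𝔸 ∩ E'` divides the image of a non-unit of `𝔸 ∩ E`;
* `sttc_dvdGauss_iota` : THE TRANSPORT of `x ≡ 1 mod ϖ P_(ϖ)` from `E` to `E'` (helper8's `ST/Up.lean`).
-/

set_option autoImplicit false
set_option linter.unusedSectionVars false
set_option linter.unusedVariables false
set_option linter.style.haveILetI false

noncomputable section

namespace Fermat.Agent.ST

open ModularCurve AlgebraicCurve IntermediateField Polynomial Fermat.Agent.S18 Fermat.Agent.SS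

local notation "Qb" => AlgebraicClosure ℚ

variable {E E' : IntermediateField ℚ Qb} (h : E ≤ E')

/-- the inclusion `E → E'` -/
def sttcIncl : E →+* E' := (IntermediateField.inclusion h).toRingHom

theorem sttcIncl_coe (x : E) : ((sttcIncl h x : E') : Qb) = (x : Qb) := rfl

theorem sttcIncl_comp : (algebraMap E' Qb).comp (sttcIncl h) = algebraMap E Qb :=
  RingHom.ext fun _ => rfl

variable (𝔸 : ValuationSubring Qb)

/-- the inclusion `𝔸 ∩ E → 𝔸 ∩ E'` -/
def sttcJ : ↥(s18dVal 𝔸 E) →+* ↥(s18dVal 𝔸 E') where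
  toFun a := ⟨sttcIncl h (a : E), a.2⟩
  map_one' := Subtype.ext (map_one (sttcIncl h))
  map_mul' a b := Subtype.ext (map_mul (sttcIncl h) _ _)
  map_zero' := Subtype.ext (map_zero (sttcIncl h))
  map_add' a b := Subtype.ext (map_add (sttcIncl h) _ _)

theorem sttcJ_coe (a : ↥(s18dVal 𝔸 E)) :
    ((sttcJ h 𝔸 a : ↥(s18dVal 𝔸 E')) : E') = sttcIncl h (a : E) := rfl

/-- a uniformiser of `𝔸 ∩ E'` divides the image of a non-unit of `𝔸 ∩ E`. -/
theorem sttc_unif_dvd [IsDiscreteValuationRing ↥(s18dVal 𝔸 E')] {ϖ' : ↥(s18dVal 𝔸 E')}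
    (hϖ' : Irreducible ϖ') {ϖ : ↥(s18dVal 𝔸 E)} (hϖ : ¬ IsUnit ϖ) :
    ϖ' ∣ sttcJ h 𝔸 ϖ := by
  have hmem : sttcJ h 𝔸 ϖ ∈ IsLocalRing.maximalIdeal ↥(s18dVal 𝔸 E') := by
    rw [IsLocalRing.mem_maximalIdeal, mem_nonunits_iff]
    intro hu
    apply hϖ
    obtain ⟨v, hv⟩ := hu.exists_right_inv
    have hne : ϖ ≠ 0 := by
      rintro rfl
      rw [map_zero, zero_mul] at hv
      exact zero_ne_one hv
    have hne' : ((ϖ : E)) ≠ 0 := fun h0 => hne (Subtype.ext h0)
    have hinv : ((ϖ : E))⁻¹ ∈ s18dVal 𝔸 E := by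
      show ((((ϖ : E))⁻¹ : E) : Qb) ∈ 𝔸
      have h1 : ((ϖ : E) : Qb) * ((v : E') : Qb) = 1 := by
        have := congrArg (fun z : ↥(s18dVal 𝔸 E') => ((z : E') : Qb)) hv
        exact this
      have h2 : ((((ϖ : E))⁻¹ : E) : Qb) = ((v : E') : Qb) := by
        rw [IntermediateField.coe_inv]
        exact inv_eq_of_mul_eq_one_right h1
      rw [h2]
      exact v.2
    exact IsUnit.of_mul_eq_one ⟨_, hinv⟩ (Subtype.ext (mul_inv_cancel₀ hne'))
  rw [hϖ'.maximalIdeal_eq, Ideal.mem_span_singleton] at hmem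
  exact hmem

variable (N : ℕ)

/-- coefficientwise base change `F_E(N) → F_{E'}(N)` -/
def sttcIota : modularFunctionFieldFullC E N →+* modularFunctionFieldFullC E' N where
  toFun x := ⟨coeffMap (sttcIncl h) (x : LaurentSeries E), s18dd_coeffMap_mem_full _ N x.2⟩
  map_one' := Subtype.ext (map_one (coeffMap (sttcIncl h)))
  map_mul' x y := Subtype.ext (map_mul (coeffMap (sttcIncl h)) _ _)
  map_zero' := Subtype.ext (map_zero (coeffMap (sttcIncl h)))
  map_add' x y := Subtype.ext (map_add (coeffMap (sttcIncl h)) _ _)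

theorem sttcIota_coe (x : modularFunctionFieldFullC E N) :
    ((sttcIota h N x : modularFunctionFieldFullC E' N) : LaurentSeries E') =
      coeffMap (sttcIncl h) (x : LaurentSeries E) := rfl

/-- `ι` is compatible with the base change to `ℚ̄` -/
theorem sttc_up_iota [NeZero N] (x : modularFunctionFieldFullC E N) :
    ssdUp E' N (sttcIota h N x) = ssdUp E N x := by
  apply Subtype.ext
  show s18dUp E' (coeffMap (sttcIncl h) (x : LaurentSeries E)) = s18dUp E (x : LaurentSeries E)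
  unfold s18dUp
  rw [coeffMap_coeffMap, sttcIncl_comp]

theorem sttcIota_algebraMap (c : E) :
    sttcIota h N (algebraMap E (modularFunctionFieldFullC E N) c) =
      algebraMap E' (modularFunctionFieldFullC E' N) (sttcIncl h c) := by
  apply Subtype.ext
  show coeffMap (sttcIncl h) (algebraMap E (LaurentSeries E) c) =
    algebraMap E' (LaurentSeries E') (sttcIncl h c)
  rw [s18dd_coeffMap_algebraMap]

/-- `ι` is compatible with the structure maps of `𝔸 ∩ E`, `𝔸 ∩ E'`. -/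
theorem sttcIota_compat (a : ↥(s18dVal 𝔸 E)) :
    sttcIota h N (algebraMap ↥(s18dVal 𝔸 E) (modularFunctionFieldFullC E N) a) =
      algebraMap ↥(s18dVal 𝔸 E') (modularFunctionFieldFullC E' N) (sttcJ h 𝔸 a) := by
  rw [IsScalarTower.algebraMap_apply ↥(s18dVal 𝔸 E) E (modularFunctionFieldFullC E N),
    IsScalarTower.algebraMap_apply ↥(s18dVal 𝔸 E') E' (modularFunctionFieldFullC E' N),
    sttcIota_algebraMap]
  rfl

/-- **THE TRANSPORT** of `x ≡ 1 mod ϖ P_(ϖ)` from `E` to `E'`. -/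
theorem sttc_dvdGauss_iota [IsDiscreteValuationRing ↥(s18dVal 𝔸 E)] [CharZero ↥(s18dVal 𝔸 E)]
    [IsDiscreteValuationRing ↥(s18dVal 𝔸 E')] [CharZero ↥(s18dVal 𝔸 E')]
    {ϖ : ↥(s18dVal 𝔸 E)} (hϖ : Irreducible ϖ) {ϖ' : ↥(s18dVal 𝔸 E')} (hϖ' : Irreducible ϖ')
    (t x : modularFunctionFieldFullC E N) (hx : S18DvdGauss hϖ t (x - 1)) :
    S18DvdGauss hϖ' (sttcIota h N t) (sttcIota h N x - 1) :=
  stu_dvdGauss_map_sub_one hϖ hϖ' (sttcJ h 𝔸) (sttc_unif_dvd h 𝔸 hϖ' hϖ.not_isUnit)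
    (sttcIota h N) (sttcIota_compat h 𝔸 N) t hx

end Fermat.Agent.ST
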