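import Mathlib
import Fermat.Agent.ST.Top.Geo
import Fermat.Agent.ST.Frob

/-!
# Program T (S35), package TOP : the algebraic identities

* `sttc_th_eq` : `stTh Q σ u = u^{Θ_Q(σ)}` (`staTheta`, helper8's exponent calculus);
* `sttcG2 σ n g U = σ(σg/g) / (σg/g) / Uⁿ`, the normalised function fed to the toric theorem;
* `sttc_main_identity` : `(g₂)^Θ · (U^Θ)ⁿ = g^{P_T(s)}`, `σ = s * s`, `Q = q²`, `g₂ = sttcG2 σ n g U`;
* `sttc_map_th`, `sttc_map_g2`, `sttc_map_dd` : transport along a ring homomorphism intertwining the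
  automorphisms;
* `sttc_norm_smul` : the norm along an embedding is equivariant for intertwined automorphisms.
-/

set_option autoImplicit false
set_option linter.unusedSectionVars false
set_option linter.unusedVariables false
set_option linter.style.haveILetI false

noncomputable section

namespace Fermat.Agent.ST

open AlgebraicCurve Polynomial Fermat.Agent.SS

universe u

section Id

variable {K : Type*} [Field K] {F : Type u} [Field F] [Algebra K F]

/-- `stTh Q σ u = u^{Θ_Q(σ)}` -/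
theorem sttc_th_eq (Q : ℕ) (σ : SemilinearAut K F) (u : Fˣ) :
    stTh Q σ (u : F) = ((staPow σ (staTheta (Q : ℤ)) u : Fˣ) : F) := by
  rw [sta_theta_coe, zpow_natCast]
  unfold stTh
  have hu : (u : F) ≠ 0 := u.ne_zero
  have hσu : σ • (u : F) ≠ 0 := stb_smul_ne_zero σ hu
  have hσσu : σ • (σ • (u : F)) ≠ 0 := stb_smul_ne_zero σ hσu
  rw [smul_div₀', div_pow, pow_succ]
  field_simp

/-- the normalised function `σ(σg/g) / (σg/g) / Uⁿ` -/
def sttcG2 (σ : SemilinearAut K F) (n : ℕ) (g U : F) : F :=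
  σ • (σ • g / g) / (σ • g / g) / U ^ n

/-- `σ(σg/g) / (σg/g) = g^{(X-1)²(σ)}` -/
theorem sttc_dd_coe (σ : SemilinearAut K F) (g : Fˣ) :
    σ • (σ • (g : F) / (g : F)) / (σ • (g : F) / (g : F)) =
      ((staPow σ ((X - 1) * (X - 1)) g : Fˣ) : F) := by
  rw [sta_pow_mul, sta_pow_sub_one_coe, sta_pow_sub_one_coe]

/-- the polynomial identity `((X - Q)(X - 1) · (X - 1)²)(X²) = P_T` -/
theorem sttc_poly_id (q : ℕ) :
    (staTheta (((q ^ 2 : ℕ) : ℤ)) * ((X - 1) * (X - 1))).comp (X ^ 2) = sttPT q := by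
  unfold staTheta sttPT
  simp only [mul_comp, sub_comp, X_comp, C_comp, one_comp]
  push_cast
  ring

/-- **THE MAIN IDENTITY** : `(g₂)^Θ · (U^Θ)ⁿ = g^{P_T(s)}`. -/
theorem sttc_main_identity (s : SemilinearAut K F) (q n : ℕ) (g U : Fˣ) :
    stTh (q ^ 2) (s * s) (sttcG2 (s * s) n (g : F) (U : F)) *
        stTh (q ^ 2) (s * s) (U : F) ^ n =
      ((staPow s (sttPT q) g : Fˣ) : F) := by
  set σ : SemilinearAut K F := s * s with hσ
  have hσ2 : σ = s ^ 2 := by rw [hσ, pow_two]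
  -- the unit `g₂`
  set G2 : Fˣ := staPow σ ((X - 1) * (X - 1)) g / U ^ n with hG2
  have hG2coe : sttcG2 σ n (g : F) (U : F) = (G2 : F) := by
    unfold sttcG2
    rw [hG2, Units.val_div_eq_div_val, Units.val_pow_eq_pow_val, sttc_dd_coe]
  rw [hG2coe, sttc_th_eq, sttc_th_eq, ← Units.val_pow_eq_pow_val, ← Units.val_mul]
  congr 1
  rw [hG2, sta_pow_map_div, sta_pow_map_pow, div_mul_cancel, ← sta_pow_mul, hσ2,
    ← sta_pow_comp_pow, Nat.cast_pow, ← Nat.cast_pow, sttc_poly_id]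

end Id

/-! ### transport along a ring homomorphism -/

section Map

variable {F₁ F₂ : Type*} [Field F₁] [Field F₂] (φ : F₁ →+* F₂)
  (σ₁ : F₁ → F₁) (σ₂ : F₂ → F₂) (h : ∀ x, φ (σ₁ x) = σ₂ (φ x))

include h in
/-- transport of `σ(σ f) f^Q / (σ f)^(Q+1)` -/
theorem sttc_map_th' (Q : ℕ) (f : F₁) :
    φ (σ₁ (σ₁ f) * f ^ Q / σ₁ f ^ (Q + 1)) =
      σ₂ (σ₂ (φ f)) * φ f ^ Q / σ₂ (φ f) ^ (Q + 1) := by
  rw [map_div₀, map_mul, map_pow, map_pow, h, h]

include h in
/-- transport of `σ(σg/g) / (σg/g) / Uⁿ` -/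
theorem sttc_map_g2' (n : ℕ) (g U : F₁) :
    φ (σ₁ (σ₁ g / g) / (σ₁ g / g) / U ^ n) =
      σ₂ (σ₂ (φ g) / φ g) / (σ₂ (φ g) / φ g) / φ U ^ n := by
  rw [map_div₀, map_div₀, map_div₀, map_pow, h, map_div₀, h]

end Map

section MapSemi

variable {K₁ K₂ : Type*} [Field K₁] [Field K₂] {F₁ : Type u} {F₂ : Type u} [Field F₁] [Field F₂]
  [Algebra K₁ F₁] [Algebra K₂ F₂] (φ : F₁ →+* F₂)
  (σ₁ : SemilinearAut K₁ F₁) (σ₂ : SemilinearAut K₂ F₂) (h : ∀ x, φ (σ₁ • x) = σ₂ • φ x)

include h in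
theorem sttc_map_th (Q : ℕ) (f : F₁) : φ (stTh Q σ₁ f) = stTh Q σ₂ (φ f) :=
  sttc_map_th' φ (fun x => σ₁ • x) (fun x => σ₂ • x) h Q f

include h in
theorem sttc_map_g2 (n : ℕ) (g U : F₁) :
    φ (sttcG2 σ₁ n g U) = sttcG2 σ₂ n (φ g) (φ U) :=
  sttc_map_g2' φ (fun x => σ₁ • x) (fun x => σ₂ • x) h n g U

include h in
theorem sttc_map_dd (g : F₁) : φ (σ₁ • g / g) = σ₂ • φ g / φ g := by
  rw [map_div₀, h]

end MapSemi

/-! ### equivariance of the norm -/

section Norm

variable {K F F' : Type*} [Field K] [Field F] [Field F'] [Algebra K F] [Algebra K F']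

/-- the norm along `ι` is equivariant for intertwined semilinear automorphisms -/
theorem sttc_norm_smul (ι : F →+* F') (g : SemilinearAut K F) (g' : SemilinearAut K F')
    (h : SemilinearAut.IntertwinesAlong ι g g') (x : F') :
    sttNorm ι (g' • x) = g • sttNorm ι x := by
  unfold sttNorm
  letI := ι.toAlgebra
  have he : (algebraMap F F').comp ((SemilinearAut.toRingAut g : F ≃+* F) : F →+* F) =
      ((SemilinearAut.toRingAut g' : F' ≃+* F') : F' →+* F').comp (algebraMap F F') := by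
    ext y
    exact (h y).symm
  have h1 := Algebra.norm_eq_of_equiv_equiv (SemilinearAut.toRingAut g : F ≃+* F)
    (SemilinearAut.toRingAut g' : F' ≃+* F') he x
  rw [SemilinearAut.smul_def, SemilinearAut.smul_def, h1, RingEquiv.apply_symm_apply]

/-- the norm of a quotient -/
theorem sttc_norm_div (ι : F →+* F') (x y : F') (hy : y ≠ 0) :
    sttNorm ι (x / y) = sttNorm ι x / sttNorm ι y := by
  unfold sttNorm
  letI := ι.toAlgebra
  have h1 : Algebra.norm F y * Algebra.norm F y⁻¹ = 1 := by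
    rw [← map_mul, mul_inv_cancel₀ hy, map_one]
  have hy0 : Algebra.norm F y ≠ 0 := left_ne_zero_of_mul_eq_one h1
  rw [eq_div_iff hy0, ← map_mul, div_mul_cancel₀ _ hy]

/-- the norm of `σ'x / x` when the norm of `x` is an `n`-th power -/
theorem sttc_norm_dd (ι : F →+* F') (g : SemilinearAut K F) (g' : SemilinearAut K F')
    (h : SemilinearAut.IntertwinesAlong ι g g') (x : F') (hx : x ≠ 0) (v : F) (n : ℕ)
    (hv : sttNorm ι x = v ^ n) :
    sttNorm ι (g' • x / x) = (g • v / v) ^ n := by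
  rw [sttc_norm_div ι _ _ hx, sttc_norm_smul ι g g' h, hv, div_pow, smul_pow']

end Norm

end Fermat.Agent.ST
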