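import Mathlib
import Fermat.Agent.ST.Tor
import Fermat.Agent.S18.Core.NumberField

/-!
# Program T (S35), package TOP : applying the abstract toric theorem `st_toric`
to `F = F_E(N) ⊂ E((q))`, with `F' = F(y) ⊂ E((q))` (so that the constants are automatically
algebraically closed in `F'`).  Copy of `SS/Top/Apply.lean`.
-/

set_option autoImplicit false
set_option linter.unusedSectionVars false
set_option linter.unusedVariables false
set_option linter.style.haveILetI false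
set_option synthInstance.maxHeartbeats 400000

noncomputable section

namespace Fermat.Agent.ST

open ModularCurve AlgebraicCurve IntermediateField Polynomial Fermat.Agent.S18 Fermat.Agent.SS

universe u

section Apply

variable {A₀ : Type*} [CommRing A₀] [IsDomain A₀] [IsDiscreteValuationRing A₀] [CharZero A₀]
variable {L₀ : Type u} [Field L₀] [Algebra A₀ L₀] [IsFractionRing A₀ L₀]
variable {ϖ : A₀}

/-- `st_toric` for an intermediate field `F` of `L₀((q))`, the `n`-th root `y` being a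
Laurent series. -/
theorem sttc_apply (hϖ : Irreducible ϖ) (F : IntermediateField L₀ (LaurentSeries L₀)) (t : F)
    (ht : Transcendental L₀ t) [FiniteDimensional L₀⟮t⟯ F]
    (G : Subgroup (SemilinearAut L₀ F))
    (n : ℕ) (hn : IsUnit (n : A₀)) (ζ : A₀) (hζ : IsPrimitiveRoot ζ n)
    {u₁ u₂ : F} {V₁ V₂ : ValuationSubring F} (h2 : SsvTwo hϖ t u₁ u₂ V₁ V₂)
    (Q : ℕ) (σ : SemilinearAut L₀ F) (hσ : StFrob ϖ t V₁ V₂ Q σ)
    (hgerm0 : ∀ 𝔫 : Ideal ↥(s18tInt A₀ t), 𝔫.IsMaximal → sskPi ϖ t ∈ 𝔫 → StRes t 𝔫 →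
      StGermAt ϖ t G V₁ V₂ σ 𝔫)
    (hgerminf : ∀ 𝔫 : Ideal ↥(s18tInt A₀ t⁻¹), 𝔫.IsMaximal → sskPi ϖ t⁻¹ ∈ 𝔫 →
      ssglTinv (A := A₀) t ∈ 𝔫 → StRes t⁻¹ 𝔫 → StGermAt ϖ t⁻¹ G V₁ V₂ σ 𝔫)
    (g : F) (hg : g ≠ 0)
    (hg1 : ∀ R : Place L₀ F, (n : ℤ) ∣ R.ord g)
    (hg2 : ∀ R : Place L₀ F, R.ord g ≠ 0 → SsRational R)
    (hg3 : {R : Place L₀ F | R.ord g ≠ 0}.Finite)
    (hg4 : S18DvdGauss hϖ t (g - 1))
    (y : LaurentSeries L₀) (hy : y ^ n = ((stTh Q σ g : F) : LaurentSeries L₀)) :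
    y ∈ F := by
  have hn0 : n ≠ 0 := by
    rintro rfl
    rw [Nat.cast_zero] at hn
    exact not_isUnit_zero hn
  have hth0 : stTh Q σ g ≠ 0 := stb_th_ne_zero Q σ hg
  have hy0 : y ≠ 0 := by
    rintro rfl
    rw [zero_pow hn0] at hy
    apply hth0
    exact Subtype.ext hy.symm
  -- the extension `F'' = F(y)`
  set F'' : IntermediateField L₀ (LaurentSeries L₀) := F ⊔ L₀⟮y⟯ with hF''def
  have hle : F ≤ F'' := le_sup_left
  have hyF'' : y ∈ F'' :=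
    (le_sup_right : L₀⟮y⟯ ≤ F ⊔ L₀⟮y⟯) (IntermediateField.mem_adjoin_simple_self L₀ y)
  letI : Algebra ↥F ↥F'' := (IntermediateField.inclusion hle).toRingHom.toAlgebra
  haveI : IsScalarTower A₀ ↥F ↥F'' := IsScalarTower.of_algebraMap_eq (fun _ => rfl)
  haveI : IsScalarTower L₀ ↥F ↥F'' := IsScalarTower.of_algebraMap_eq (fun _ => rfl)
  have hy'' : (⟨y, hyF''⟩ : ↥F'') ^ n = algebraMap ↥F ↥F'' (stTh Q σ g) := Subtype.ext hy
  have hgen : (↥F)⟮(⟨y, hyF''⟩ : ↥F'')⟯ = ⊤ := s18cn_adjoin_eq_top F F'' hle y hyF'' le_rfl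
  obtain ⟨y₀, hy₀⟩ := st_toric (↥F'') hϖ t ht G n hn ζ hζ h2 Q σ hσ hgerm0 hgerminf
    g hg hg1 hg2 hg3 hg4 (⟨y, hyF''⟩ : ↥F'') hy'' hgen (s18cn_constants F'')
  -- `y₀ ^ n = y ^ n` and `ζ ∈ L₀`
  have hζL : IsPrimitiveRoot (algebraMap A₀ L₀ ζ) n :=
    hζ.map_of_injective (IsFractionRing.injective A₀ L₀)
  refine s18cn_mem_of_pow_eq F n hn0 (algebraMap A₀ L₀ ζ) hζL y hy0 y₀ ?_
  rw [hy, ← hy₀]
  rfl

end Apply

end Fermat.Agent.ST
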