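import Mathlib
import Fermat.Agent.ST.Frob

/-!
# Program T (S35), package TOP : bookkeeping of divisors

* `SttcDvd n x` : `x ≠ 0` and `n` divides all orders of `x`;
* `SttcSupp x` : the support of `div x` is finite and consists of rational places;
both are stable under products, inverses, quotients and semilinear automorphisms; `x ^ n` satisfies
`SttcDvd n`.
-/

set_option autoImplicit false
set_option linter.unusedSectionVars false
set_option linter.unusedVariables false

noncomputable section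

namespace Fermat.Agent.ST

open AlgebraicCurve Fermat.Agent.SS

universe u

variable {L : Type*} [Field L] {F : Type u} [Field F] [Algebra L F]

/-- `x ≠ 0` and `n` divides all orders of `x` -/
def SttcDvd (L : Type*) [Field L] {F : Type u} [Field F] [Algebra L F] (n : ℕ) (x : F) : Prop :=
  x ≠ 0 ∧ ∀ R : Place L F, (n : ℤ) ∣ R.ord x

/-- the support of `div x` is finite and consists of rational places -/
def SttcSupp (L : Type*) [Field L] {F : Type u} [Field F] [Algebra L F] (x : F) : Prop :=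
  (∀ R : Place L F, R.ord x ≠ 0 → SsRational R) ∧ {R : Place L F | R.ord x ≠ 0}.Finite

namespace SttcDvd

variable {n : ℕ} {x y : F}

theorem mul (hx : SttcDvd L n x) (hy : SttcDvd L n y) : SttcDvd L n (x * y) :=
  ⟨mul_ne_zero hx.1 hy.1, fun R => by
    rw [Place.ord_mul _ hx.1 hy.1]
    exact dvd_add (hx.2 R) (hy.2 R)⟩

theorem inv (hx : SttcDvd L n x) : SttcDvd L n x⁻¹ :=
  ⟨inv_ne_zero hx.1, fun R => by
    rw [Place.ord_inv]
    exact (dvd_neg).mpr (hx.2 R)⟩

theorem div (hx : SttcDvd L n x) (hy : SttcDvd L n y) : SttcDvd L n (x / y) := by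
  rw [div_eq_mul_inv]
  exact hx.mul hy.inv

theorem smul (σ : SemilinearAut L F) (hx : SttcDvd L n x) : SttcDvd L n (σ • x) :=
  ⟨stb_smul_ne_zero σ hx.1, fun R => by
    rw [stb_ord_smul]
    exact hx.2 _⟩

theorem pow_self (n : ℕ) (hx : x ≠ 0) : SttcDvd L n (x ^ n) :=
  ⟨pow_ne_zero n hx, fun R => by
    rw [← zpow_natCast, Place.ord_zpow]
    exact dvd_mul_right _ _⟩

theorem pow (hx : SttcDvd L n x) (m : ℕ) : SttcDvd L n (x ^ m) :=
  ⟨pow_ne_zero m hx.1, fun R => by
    rw [← zpow_natCast, Place.ord_zpow]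
    exact Dvd.dvd.mul_left (hx.2 R) _⟩

end SttcDvd

namespace SttcSupp

variable {x y : F}

theorem mul (hx0 : x ≠ 0) (hy0 : y ≠ 0) (hx : SttcSupp L x) (hy : SttcSupp L y) :
    SttcSupp L (x * y) := by
  have key : ∀ R : Place L F, R.ord (x * y) ≠ 0 → R.ord x ≠ 0 ∨ R.ord y ≠ 0 := by
    intro R hR
    rw [Place.ord_mul _ hx0 hy0] at hR
    by_contra hcon
    push Not at hcon
    rw [hcon.1, hcon.2, add_zero] at hR
    exact hR rfl
  refine ⟨fun R hR => ?_, ?_⟩
  · rcases key R hR with h | h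
    · exact hx.1 R h
    · exact hy.1 R h
  · refine (hx.2.union hy.2).subset ?_
    intro R hR
    exact key R hR

theorem inv (hx : SttcSupp L x) : SttcSupp L x⁻¹ := by
  have key : ∀ R : Place L F, R.ord x⁻¹ ≠ 0 ↔ R.ord x ≠ 0 := by
    intro R
    rw [Place.ord_inv, neg_ne_zero]
  refine ⟨fun R hR => hx.1 R ((key R).mp hR), ?_⟩
  refine hx.2.subset ?_
  intro R hR
  exact (key R).mp hR

theorem div (hx0 : x ≠ 0) (hy0 : y ≠ 0) (hx : SttcSupp L x) (hy : SttcSupp L y) :
    SttcSupp L (x / y) := by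
  rw [div_eq_mul_inv]
  exact mul hx0 (inv_ne_zero hy0) hx hy.inv

theorem smul (σ : SemilinearAut L F) (hx : SttcSupp L x) : SttcSupp L (σ • x) := by
  refine ⟨fun R hR => ?_, ?_⟩
  · rw [stb_ord_smul] at hR
    have h1 := stb_rational_smul σ _ (hx.1 _ hR)
    rwa [smul_inv_smul] at h1
  · have hsub : {R : Place L F | R.ord (σ • x) ≠ 0} =
        (fun R : Place L F => σ⁻¹ • R) ⁻¹' {R : Place L F | R.ord x ≠ 0} := by
      ext R
      simp only [Set.mem_setOf_eq, Set.mem_preimage]
      rw [stb_ord_smul]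
    rw [hsub]
    exact hx.2.preimage (Set.injOn_of_injective (MulAction.injective σ⁻¹))

theorem pow (hx : SttcSupp L x) (m : ℕ) : SttcSupp L (x ^ m) := by
  have key : ∀ R : Place L F, R.ord (x ^ m) ≠ 0 → R.ord x ≠ 0 := by
    intro R hR h0
    rw [← zpow_natCast, Place.ord_zpow, h0, mul_zero] at hR
    exact hR rfl
  refine ⟨fun R hR => hx.1 R (key R hR), hx.2.subset ?_⟩
  intro R hR
  exact key R hR

end SttcSupp

end Fermat.Agent.ST
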