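import Mathlib
import Fermat.Agent.ST.Frob
import Fermat.Agent.ST.Smooth

/-!
# Program T (S35), package TOP : units at the two Gauss valuations

* `sttc_exists_decomp` : at a valuation ring `V` with uniformiser `π` and the archimedean property,
  every `g ≠ 0` is `π^a · w` with `w` a unit of `V`;
* `sttc_smul_div_mem` : if `σ V = V` then `σ g / g` is a unit of `V`, for every `g ≠ 0`;
* `sttc_frob_unit` : for a Frobenius lift `σ` (`StFrob`) and the two valuations of `SsvTwo` :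
  `σ g / g` is a unit of `P_(ϖ) = V₁ ∩ V₂`, for every `g ≠ 0`;
* `sttc_cong_div` : `x ≡ y mod ϖ P_(ϖ)`, `x` a unit of `P_(ϖ)`, `y ∈ P_(ϖ)` ⟹ `y` is a unit and
  `x / y ≡ 1 mod ϖ P_(ϖ)`.
-/

set_option autoImplicit false
set_option linter.unusedSectionVars false
set_option linter.unusedVariables false
set_option linter.style.haveILetI false

noncomputable section

namespace Fermat.Agent.ST

open Polynomial IntermediateField AlgebraicCurve Fermat.Agent.S18 Fermat.Agent.SS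

universe u

section Val

variable {L : Type*} [Field L] {F : Type u} [Field F] [Algebra L F]

theorem sttc_smul_zpow (σ : SemilinearAut L F) (x : F) (a : ℤ) : σ • x ^ a = (σ • x) ^ a := by
  rw [SemilinearAut.smul_def, SemilinearAut.smul_def, map_zpow₀]

/-- a product of a non-unit and an element of `V` is a non-unit -/
theorem sttc_mul_mem_nonunits {V : ValuationSubring F} {a b : F} (ha : a ∈ V.nonunits)
    (hb : b ∈ V) : a * b ∈ V.nonunits := by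
  rw [ValuationSubring.mem_nonunits_iff] at ha ⊢
  rw [map_mul]
  exact lt_of_le_of_lt (mul_le_of_le_one_right' ((V.valuation_le_one_iff b).mpr hb)) ha

/-- a unit is not a non-unit -/
theorem sttc_not_nonunit {V : ValuationSubring F} {x : F} (hx' : x⁻¹ ∈ V) (hx0 : x ≠ 0) :
    x ∉ V.nonunits := by
  intro h
  rw [stb_mem_nonunits_iff] at h
  rcases h with h | h
  · exact hx0 h
  · exact h hx'

/-- at the minimal `k > 0` with `π^k x ∈ V`, the element `π^k x` is a unit of `V` -/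
theorem sttc_min_unit {V : ValuationSubring F} {π : F} (hπ : S18IsUnif V π) (hπ0 : π ≠ 0)
    {x : F} {k : ℕ} (hk : π ^ (k + 1) * x ∈ V) (hmin : π ^ k * x ∉ V) :
    (π ^ (k + 1) * x)⁻¹ ∈ V := by
  apply sts_inv_mem
  intro hnon
  apply hmin
  have h1 := sts_div_unif_mem hπ hπ0 hnon
  have e : π ^ (k + 1) * x / π = π ^ k * x := by
    rw [pow_succ]
    field_simp
  rwa [e] at h1

/-- a nonzero element not in `V` is `π^{-k} w` with `k > 0`, `w` a unit -/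
theorem sttc_decomp_of_not_mem {V : ValuationSubring F} {π : F} (hπ : S18IsUnif V π)
    (hπ0 : π ≠ 0) (harch : ∀ x : F, ∃ k : ℕ, π ^ k * x ∈ V) {x : F} (hx : x ∉ V) :
    ∃ (k : ℕ) (w : F), w ∈ V ∧ w⁻¹ ∈ V ∧ w = π ^ k * x := by
  classical
  have hex := harch x
  have h0 : Nat.find hex ≠ 0 := by
    intro h0
    have := Nat.find_spec hex
    rw [h0, pow_zero, one_mul] at this
    exact hx this
  obtain ⟨k, hk⟩ := Nat.exists_eq_succ_of_ne_zero h0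
  have hspec := Nat.find_spec hex
  rw [hk] at hspec
  have hmin : π ^ k * x ∉ V := Nat.find_min hex (by rw [hk]; exact Nat.lt_succ_self k)
  exact ⟨k + 1, π ^ (k + 1) * x, hspec, sttc_min_unit hπ hπ0 hspec hmin, rfl⟩

/-- every `g ≠ 0` is `π^a w` with `w` a unit of `V` -/
theorem sttc_exists_decomp {V : ValuationSubring F} {π : F} (hπ : S18IsUnif V π) (hπ0 : π ≠ 0)
    (harch : ∀ x : F, ∃ k : ℕ, π ^ k * x ∈ V) {g : F} (hg : g ≠ 0) :
    ∃ (a : ℤ) (w : F), w ∈ V ∧ w⁻¹ ∈ V ∧ g = π ^ a * w := by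
  by_cases h1 : g ∈ V
  · by_cases h2 : g⁻¹ ∈ V
    · exact ⟨0, g, h1, h2, by rw [zpow_zero, one_mul]⟩
    · obtain ⟨k, w, hw, hw', hwk⟩ := sttc_decomp_of_not_mem hπ hπ0 harch h2
      refine ⟨k, w⁻¹, hw', by rwa [inv_inv], ?_⟩
      rw [hwk, zpow_natCast, mul_inv, inv_inv, ← mul_assoc, mul_inv_cancel₀ (pow_ne_zero k hπ0),
        one_mul]
  · obtain ⟨k, w, hw, hw', hwk⟩ := sttc_decomp_of_not_mem hπ hπ0 harch h1
    refine ⟨-(k : ℤ), w, hw, hw', ?_⟩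
    rw [hwk, zpow_neg, zpow_natCast, ← mul_assoc, inv_mul_cancel₀ (pow_ne_zero k hπ0), one_mul]

/-- if `σ V = V` then `σ g / g` is a unit of `V` -/
theorem sttc_smul_div_mem {V : ValuationSubring F} {π : F} (hπ : S18IsUnif V π) (hπ0 : π ≠ 0)
    (harch : ∀ x : F, ∃ k : ℕ, π ^ k * x ∈ V) (σ : SemilinearAut L F)
    (hV : ∀ x : F, σ • x ∈ V ↔ x ∈ V) {g : F} (hg : g ≠ 0) :
    σ • g / g ∈ V ∧ g / (σ • g) ∈ V := by
  have hV' : ∀ x : F, σ⁻¹ • x ∈ V ↔ x ∈ V := fun x => by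
    rw [← hV (σ⁻¹ • x), smul_inv_smul]
  have hσπ0 : σ • π ≠ 0 := stb_smul_ne_zero σ hπ0
  -- the uniformiser
  have hπ1 : σ • π / π ∈ V :=
    sts_div_unif_mem hπ hπ0 ((stb_nonunits_smul_iff σ V hV π).mpr (sts_unif_mem hπ))
  have hπ2 : π / (σ • π) ∈ V := by
    have h1 : σ⁻¹ • π / π ∈ V :=
      sts_div_unif_mem hπ hπ0 ((stb_nonunits_smul_iff σ⁻¹ V hV' π).mpr (sts_unif_mem hπ))
    have h2 := (hV _).mpr h1
    rwa [smul_div₀', smul_inv_smul] at h2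
  have hπ2' : (σ • π / π)⁻¹ ∈ V := by rwa [inv_div]
  obtain ⟨a, w, hw, hw', rfl⟩ := sttc_exists_decomp hπ hπ0 harch hg
  have hw0 : w ≠ 0 := by
    rintro rfl
    rw [mul_zero] at hg
    exact hg rfl
  have hσw : σ • w ∈ V := (hV w).mpr hw
  have hσw' : (σ • w)⁻¹ ∈ V := by
    rw [← smul_inv'']
    exact (hV _).mpr hw'
  have hσw0 : σ • w ≠ 0 := stb_smul_ne_zero σ hw0
  have e1 : σ • (π ^ a * w) / (π ^ a * w) = (σ • π / π) ^ a * (σ • w * w⁻¹) := by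
    rw [smul_mul', sttc_smul_zpow, div_zpow]
    field_simp
  have e2 : π ^ a * w / (σ • (π ^ a * w)) = ((σ • π / π) ^ a)⁻¹ * (w * (σ • w)⁻¹) := by
    rw [smul_mul', sttc_smul_zpow, div_zpow]
    field_simp
  rw [e1, e2]
  refine ⟨V.mul_mem _ _ (sts_zpow_mem V hπ1 hπ2' a) (V.mul_mem _ _ hσw hw'), ?_⟩
  refine V.mul_mem _ _ ?_ (V.mul_mem _ _ hw hσw')
  rw [← zpow_neg]
  exact sts_zpow_mem V hπ1 hπ2' (-a)

end Val

section Two

variable {A : Type*} [CommRing A] [IsDomain A] [IsDiscreteValuationRing A] [CharZero A]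
variable {L : Type*} [Field L] [Algebra A L] [IsFractionRing A L]
variable {F : Type u} [Field F] [Algebra A F] [Algebra L F] [IsScalarTower A L F]
variable {ϖ : A} {hϖ : Irreducible ϖ} {t : F} {u₁ u₂ : F} {V₁ V₂ : ValuationSubring F}

/-- for a Frobenius lift `σ`, `σ g / g` is a unit of `P_(ϖ) = V₁ ∩ V₂` -/
theorem sttc_frob_unit (ht : Transcendental L t) [FiniteDimensional L⟮t⟯ F]
    (h2 : SsvTwo hϖ t u₁ u₂ V₁ V₂) {Q : ℕ} {σ : SemilinearAut L F}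
    (hσ : StFrob ϖ t V₁ V₂ Q σ) {g : F} (hg : g ≠ 0) :
    σ • g / g ∈ s18tIntLoc A t (C ϖ) (s18t_prime_C hϖ) ∧
      g / (σ • g) ∈ s18tIntLoc A t (C ϖ) (s18t_prime_C hϖ) := by
  have hπ0 : algebraMap A F ϖ ≠ 0 := sts_unif_ne_zero L hϖ
  have harch₁ : ∀ x : F, ∃ k : ℕ, algebraMap A F ϖ ^ k * x ∈ V₁ := fun x => by
    obtain ⟨k, hk⟩ := sts_exists_pow_mul_mem (L := L) hϖ t ht x
    exact ⟨k, sts_intLoc_le₁ h2 hk⟩
  have harch₂ : ∀ x : F, ∃ k : ℕ, algebraMap A F ϖ ^ k * x ∈ V₂ := fun x => by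
    obtain ⟨k, hk⟩ := sts_exists_pow_mul_mem (L := L) hϖ t ht x
    exact ⟨k, sts_intLoc_le₂ h2 hk⟩
  have h₁ := sttc_smul_div_mem h2.unif₁ hπ0 harch₁ σ hσ.val₁ hg
  have h₂ := sttc_smul_div_mem h2.unif₂ hπ0 harch₂ σ hσ.val₂ hg
  exact ⟨(h2.mem_iff _).mpr ⟨h₁.1, h₂.1⟩, (h2.mem_iff _).mpr ⟨h₁.2, h₂.2⟩⟩

/-- `x ≡ y mod ϖ P_(ϖ)`, `x` a unit of `P_(ϖ)`, `y ∈ P_(ϖ)` ⟹ `y` is a unit and
`x / y ≡ 1 mod ϖ P_(ϖ)` -/
theorem sttc_cong_div (h2 : SsvTwo hϖ t u₁ u₂ V₁ V₂) {x y : F}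
    (hx' : x⁻¹ ∈ s18tIntLoc A t (C ϖ) (s18t_prime_C hϖ)) (hx0 : x ≠ 0)
    (hy : y ∈ s18tIntLoc A t (C ϖ) (s18t_prime_C hϖ))
    (hxy : S18DvdGauss hϖ t (x - y)) :
    y ≠ 0 ∧ y⁻¹ ∈ s18tIntLoc A t (C ϖ) (s18t_prime_C hϖ) ∧ S18DvdGauss hϖ t (x / y - 1) := by
  rw [h2.dvd_iff] at hxy
  have hx'' := (h2.mem_iff _).mp hx'
  have key : ∀ V : ValuationSubring F, x⁻¹ ∈ V → x - y ∈ V.nonunits → y ∉ V.nonunits := by
    intro V hxV hxyV hyV
    apply sttc_not_nonunit hxV hx0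
    have : x = (x - y) + y := by ring
    rw [this]
    exact add_mem hxyV hyV
  have hy₁ := key V₁ hx''.1 hxy.1
  have hy₂ := key V₂ hx''.2 hxy.2
  have hy0 : y ≠ 0 := by
    rintro rfl
    exact hy₁ (zero_mem _)
  have hyi₁ : y⁻¹ ∈ V₁ := sts_inv_mem V₁ hy₁
  have hyi₂ : y⁻¹ ∈ V₂ := sts_inv_mem V₂ hy₂
  refine ⟨hy0, (h2.mem_iff _).mpr ⟨hyi₁, hyi₂⟩, ?_⟩
  rw [h2.dvd_iff]
  have e : x / y - 1 = (x - y) * y⁻¹ := by
    field_simp
  rw [e]
  exact ⟨sttc_mul_mem_nonunits hxy.1 hyi₁, sttc_mul_mem_nonunits hxy.2 hyi₂⟩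

end Two

end Fermat.Agent.ST
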