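import Mathlib
import Fermat.Agent.ST.Top.Geo
import Fermat.Agent.ST.Top.Apply
import Fermat.Agent.ST.Top.Unit
import Fermat.Agent.ST.Top.Nice
import Fermat.Agent.ST.Top.AlgId

/-!
# Program T (S35), package TOP : the two stages of `st_core_of_geo` at a fixed number field

* `sttc_stage_a` (level `E_a`) : from `SttGeo` and the norm relations of `f = σg/g`, the toric
  normalisation `g₂ = σ(σg/g)/(σg/g)/Uⁿ ≡ 1 mod ϖ P_(ϖ)`;
* `sttc_stage_b` (level `E_b`) : from `SttGeo`, `g₂ ≡ 1`, and the rationality of the supports of `g`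
  and `U`, an `n`-th root of `g₂^Θ` in `E_b((q))` lies in `F_{E_b}(M q)` (`st_toric`).
-/

set_option autoImplicit false
set_option linter.unusedSectionVars false
set_option linter.unusedVariables false
set_option linter.style.haveILetI false
set_option synthInstance.maxHeartbeats 400000

noncomputable section

namespace Fermat.Agent.ST

open ModularCurve AlgebraicCurve IntermediateField Polynomial Fermat.Agent.S18 Fermat.Agent.SS

local notation "Qb" => AlgebraicClosure ℚ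
local notation "GQ" => (AlgebraicClosure ℚ ≃ₐ[ℚ] AlgebraicClosure ℚ)

variable {M q : ℕ} [NeZero M] [NeZero q] {𝔸 : ValuationSubring Qb} {s : GQ}
  {E : IntermediateField ℚ Qb} [Normal ℚ E]
  [IsDiscreteValuationRing ↥(s18dVal 𝔸 E)] [CharZero ↥(s18dVal 𝔸 E)]
  {t : modularFunctionFieldFullC E (M * q)}

/-- STAGE A : the toric normalisation at the level `E`. -/
theorem sttc_stage_a (geo : SttGeo M q 𝔸 s E t) {ϖ : ↥(s18dVal 𝔸 E)} (hϖ : Irreducible ϖ)
    (n : ℕ) (hn : n ≠ 0) (g : modularFunctionFieldFullC E (M * q)) (hg : g ≠ 0)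
    (h h' : modularFunctionFieldFullC E M)
    (hα : sttNorm (ssvmdIncl E M q).toRingHom
      ((ssdAut E (M * q) (s.restrictNormal E) * ssdAut E (M * q) (s.restrictNormal E)) • g / g) =
        h ^ n)
    (hφ : sttNorm (ssvmfPhi E M q)
      ((ssdAut E (M * q) (s.restrictNormal E) * ssdAut E (M * q) (s.restrictNormal E)) • g / g) =
        h' ^ n) :
    ∃ U : modularFunctionFieldFullC E (M * q), U ≠ 0 ∧
      S18DvdGauss hϖ t
        (sttcG2 (ssdAut E (M * q) (s.restrictNormal E) * ssdAut E (M * q) (s.restrictNormal E))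
          n g U - 1) := by
  haveI := geo.fin
  obtain ⟨σ, hσdef⟩ : ∃ σ, σ =
    ssdAut E (M * q) (s.restrictNormal E) * ssdAut E (M * q) (s.restrictNormal E) := ⟨_, rfl⟩
  obtain ⟨G, u₁, u₂, V₁, V₂, h2, hfrob, -, -⟩ := geo.conc ϖ hϖ
  rw [← hσdef] at hfrob hα hφ ⊢
  -- `f = σ g / g` is a unit of `P_(ϖ)`
  obtain ⟨f, hfdef⟩ : ∃ f, f = σ • g / g := ⟨_, rfl⟩
  have hσg : σ • g ≠ 0 := stb_smul_ne_zero σ hg
  have hf0 : f ≠ 0 := hfdef ▸ div_ne_zero hσg hg
  obtain ⟨hf1, hf2⟩ := sttc_frob_unit geo.transc h2 hfrob hg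
  have hf2' : f⁻¹ ∈ s18tIntLoc ↥(s18dVal 𝔸 E) t (C ϖ) (s18t_prime_C hϖ) := by
    rw [hfdef, inv_div]
    exact hf2
  rw [← hfdef] at hf1 hα hφ
  -- `σ f` is a unit of `P_(ϖ)`
  obtain ⟨hσf1, hσf2⟩ := sttc_frob_unit geo.transc h2 hfrob hf0
  have hσf0 : σ • f ≠ 0 := stb_smul_ne_zero σ hf0
  have hσf_inv : (σ • f)⁻¹ ∈ s18tIntLoc ↥(s18dVal 𝔸 E) t (C ϖ) (s18t_prime_C hϖ) := by
    have e : (σ • f)⁻¹ = f / (σ • f) * f⁻¹ := by
      field_simp
    rw [e]
    exact Subring.mul_mem _ hσf2 hf2'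
  -- (G1)
  obtain ⟨U, hU, hcong⟩ := geo.g1 ϖ hϖ n hn f hf1 hf2' h h' hα hφ
  have hσσ : ssdAut E (M * q) (s.restrictNormal E) •
      (ssdAut E (M * q) (s.restrictNormal E) • f) = σ • f := by
    rw [hσdef, mul_smul]
  rw [hσσ] at hcong
  have hy : f * U ^ n ∈ s18tIntLoc ↥(s18dVal 𝔸 E) t (C ϖ) (s18t_prime_C hϖ) :=
    Subring.mul_mem _ hf1 (Subring.pow_mem _ hU n)
  obtain ⟨hy0, -, hdiv⟩ := sttc_cong_div h2 hσf_inv hσf0 hy hcong
  have hU0 : U ≠ 0 := by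
    rintro rfl
    rw [zero_pow hn, mul_zero] at hy0
    exact hy0 rfl
  refine ⟨U, hU0, ?_⟩
  have e : sttcG2 σ n g U = σ • f / (f * U ^ n) := by
    unfold sttcG2
    rw [← hfdef, div_div]
  rw [e]
  exact hdiv

/-- STAGE B : the abstract toric theorem at the level `E`. -/
theorem sttc_stage_b (geo : SttGeo M q 𝔸 s E t) {ϖ : ↥(s18dVal 𝔸 E)} (hϖ : Irreducible ϖ)
    (n : ℕ) (hn : IsUnit (n : ↥(s18dVal 𝔸 E))) (ζ : ↥(s18dVal 𝔸 E)) (hζ : IsPrimitiveRoot ζ n)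
    (g U : modularFunctionFieldFullC E (M * q))
    (hg : SttcDvd E n g) (hgS : SttcSupp E g) (hU0 : U ≠ 0) (hUS : SttcSupp E U)
    (hcong : S18DvdGauss hϖ t
      (sttcG2 (ssdAut E (M * q) (s.restrictNormal E) * ssdAut E (M * q) (s.restrictNormal E))
        n g U - 1))
    (y : LaurentSeries E)
    (hy : y ^ n = ((stTh (q ^ 2)
      (ssdAut E (M * q) (s.restrictNormal E) * ssdAut E (M * q) (s.restrictNormal E))
      (sttcG2 (ssdAut E (M * q) (s.restrictNormal E) * ssdAut E (M * q) (s.restrictNormal E))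
        n g U) : modularFunctionFieldFullC E (M * q)) : LaurentSeries E)) :
    y ∈ modularFunctionFieldFullC E (M * q) := by
  haveI := geo.fin
  obtain ⟨σ, hσdef⟩ : ∃ σ, σ =
    ssdAut E (M * q) (s.restrictNormal E) * ssdAut E (M * q) (s.restrictNormal E) := ⟨_, rfl⟩
  obtain ⟨G, u₁, u₂, V₁, V₂, h2, hfrob, hgerm0, hgerminf⟩ := geo.conc ϖ hϖ
  rw [← hσdef] at hfrob hgerm0 hgerminf hcong hy
  have hg0 : g ≠ 0 := hg.1
  have hσg0 : σ • g ≠ 0 := stb_smul_ne_zero σ hg0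
  have hf0 : σ • g / g ≠ 0 := div_ne_zero hσg0 hg0
  have hσf0 : σ • (σ • g / g) ≠ 0 := stb_smul_ne_zero σ hf0
  have hUn0 : U ^ n ≠ 0 := pow_ne_zero n hU0
  -- divisibility
  have hfD : SttcDvd E n (σ • g / g) := (hg.smul σ).div hg
  have hG2D : SttcDvd E n (sttcG2 σ n g U) := by
    unfold sttcG2
    exact ((hfD.smul σ).div hfD).div (SttcDvd.pow_self n hU0)
  -- supports
  have hfS : SttcSupp E (σ • g / g) := SttcSupp.div hσg0 hg0 (hgS.smul σ) hgS
  have hG2S : SttcSupp E (sttcG2 σ n g U) := by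
    unfold sttcG2
    exact SttcSupp.div (div_ne_zero hσf0 hf0) hUn0 (SttcSupp.div hσf0 hf0 (hfS.smul σ) hfS)
      (hUS.pow n)
  exact sttc_apply hϖ (modularFunctionFieldFullC E (M * q)) t geo.transc G n hn ζ hζ h2 (q ^ 2) σ
    hfrob hgerm0 hgerminf (sttcG2 σ n g U) hG2D.1 hG2D.2 hG2S.1 hG2S.2 hcong y hy

end Fermat.Agent.ST
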