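import Mathlib
import Fermat.Agent.ST.Top.Stage
import Fermat.Agent.ST.Top.Lvl
import Fermat.Agent.SS.Top.Core
import Fermat.Agent.SS.Dict.Descend
import Fermat.Agent.G.Asm.HeckeGalois

/-!
# Program T (S35), package TOP : the assembly `st_core_of_geo`

`st_core_of_geo` : the concrete side `SttGeoAt M q` (for all big enough number fields) and the
base-change compatibility of the norms `SttNormUp M q` give the function-level core `StCore M p q`.

TWO LEVELS : the toric normalisation (G1) produces `U` with uncontrolled support at a first number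
field `E_a`; the support of `U` becomes rational over a bigger field `E_b`, to which the congruence
`g₂ ≡ 1 mod ϖ P_(ϖ)` is transported (`ST/Top/Lvl.lean`), and the abstract toric theorem is applied
over `E_b`.
-/

set_option autoImplicit false
set_option linter.unusedSectionVars false
set_option linter.unusedVariables false
set_option linter.style.haveILetI false
set_option synthInstance.maxHeartbeats 400000

noncomputable section

namespace Fermat.Agent.ST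

open ModularCurve AlgebraicCurve IntermediateField Polynomial Fermat.Agent.S18 Fermat.Agent.SS
  Fermat.Agent.S24 Fermat.Agent.G

local notation "Qb" => AlgebraicClosure ℚ
local notation "GQ" => (AlgebraicClosure ℚ ≃ₐ[ℚ] AlgebraicClosure ℚ)

/-! ### small lemmas -/

section Small

variable (E : IntermediateField ℚ Qb) (N : ℕ) [NeZero N] [Normal ℚ E]

/-- `ssdUp` intertwines the squares of the Galois actions -/
theorem sttc_up_sq (s : GQ) (x : modularFunctionFieldFullC E N) :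
    ssdUp E N ((ssdAut E N (s.restrictNormal E) * ssdAut E N (s.restrictNormal E)) • x) =
      (arithmeticGalois (modularFunctionFieldFull N) s *
        arithmeticGalois (modularFunctionFieldFull N) s) • ssdUp E N x := by
  rw [mul_smul, mul_smul, ssdUp_aut, ssdUp_aut]

end Small

/-- intertwining is multiplicative -/
theorem sttc_intertwines_mul {K F F' : Type*} [Field K] [Field F] [Field F'] [Algebra K F]
    [Algebra K F'] {ι : F →+* F'} {g₁ g₂ : SemilinearAut K F} {g₁' g₂' : SemilinearAut K F'}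
    (h₁ : SemilinearAut.IntertwinesAlong ι g₁ g₁') (h₂ : SemilinearAut.IntertwinesAlong ι g₂ g₂') :
    SemilinearAut.IntertwinesAlong ι (g₁ * g₂) (g₁' * g₂') := fun x => by
  rw [mul_smul, mul_smul, h₂ x, h₁]

/-- the order at `∞` of a function all of whose orders are divisible by `n` -/
theorem sttc_order_dvd (N : ℕ) [NeZero N] (n : ℕ) (x : modularFunctionFieldBar N)
    (hx : SttcDvd Qb n x) : (n : ℤ) ∣ ((x : modularFunctionFieldBar N) : LaurentSeries Qb).order := by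
  obtain ⟨Pinf, hPinf⟩ := s18d_cusp_place N
  rw [← hPinf x hx.1]
  exact hx.2 Pinf

/-- the normal closure of a finite-dimensional field is finite-dimensional (instance form) -/
theorem sttc_fd_sup (E₁ E₂ : IntermediateField ℚ Qb) [FiniteDimensional ℚ E₁]
    [FiniteDimensional ℚ E₂] : FiniteDimensional ℚ (E₁ ⊔ E₂ : IntermediateField ℚ Qb) :=
  IntermediateField.finiteDimensional_sup _ _

/-! ### THE ASSEMBLY -/

set_option maxHeartbeats 1600000 in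
/-- **THE ASSEMBLY** : the concrete side at every `𝔸` over `q` (for all big enough number fields)
gives the function-level core `StCore M p q`. -/
theorem st_core_of_geo (M : ℕ) [NeZero M] (p q : ℕ) [NeZero q] (hp : p.Prime) (hq : q.Prime)
    (hqp : q ≠ p) (hgeo : SttGeoAt M q) (hnorm : SttNormUp M q) : StCore M p q := by
  intro 𝔸 hA s hs k g hdiv v v' hv hv'
  have hnpos : 0 < p ^ k := pow_pos hp.pos k
  have hn0 : p ^ k ≠ 0 := hnpos.ne'
  obtain ⟨tB, E₁, hE₁, hgeoE⟩ := hgeo 𝔸 hA s hs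
  haveI := hE₁
  haveI : Fact q.Prime := ⟨hq⟩
  haveI halg : Algebra.IsAlgebraic ℚ Qb := AlgebraicClosure.isAlgebraic ℚ
  haveI hcl : IsAlgClosure ℚ Qb := AlgebraicClosure.instIsAlgClosure ℚ
  haveI hnormQb : Normal ℚ Qb := IsAlgClosure.normal ℚ Qb
  -- the `ℚ̄`-level automorphisms, kept opaque
  obtain ⟨σB, hσB⟩ : ∃ σ, σ = arithmeticGalois (modularFunctionFieldFull (M * q)) s *
    arithmeticGalois (modularFunctionFieldFull (M * q)) s := ⟨_, rfl⟩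
  obtain ⟨σB₀, hσB₀⟩ : ∃ σ, σ = arithmeticGalois (modularFunctionFieldFull M) s *
    arithmeticGalois (modularFunctionFieldFull M) s := ⟨_, rfl⟩
  have hintα : SemilinearAut.IntertwinesAlong (heckeAlphaBar Qb M q).toRingHom σB₀ σB := by
    rw [hσB₀, hσB]
    exact sttc_intertwines_mul (gasmhg_alpha_intertwines M q s) (gasmhg_alpha_intertwines M q s)
  have hintβ : SemilinearAut.IntertwinesAlong (heckeBetaBar Qb M q).toRingHom σB₀ σB := by
    rw [hσB₀, hσB]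
    exact sttc_intertwines_mul (gasmhg_beta_intertwines M q s) (gasmhg_beta_intertwines M q s)
  have hg0 : (g : modularFunctionFieldBar (M * q)) ≠ 0 := g.ne_zero
  -- the norms of `f = σ g / g`
  have hαf : sttNorm (heckeAlphaBar Qb M q).toRingHom
      (σB • (g : modularFunctionFieldBar (M * q)) / (g : modularFunctionFieldBar (M * q))) =
        (σB₀ • v / v) ^ (p ^ k) := sttc_norm_dd _ σB₀ σB hintα _ hg0 v _ hv
  have hβf : sttNorm (heckeBetaBar Qb M q).toRingHom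
      (σB • (g : modularFunctionFieldBar (M * q)) / (g : modularFunctionFieldBar (M * q))) =
        (σB₀ • v' / v') ^ (p ^ k) := sttc_norm_dd _ σB₀ σB hintβ _ hg0 v' _ hv'
  -- STAGE A : the first number field
  obtain ⟨E₂, hE₂, hdesc⟩ := ssd_descend (M * q) (p ^ k) (g : modularFunctionFieldBar (M * q))
    hg0 hdiv
  obtain ⟨E₃, hE₃, hdescv⟩ := ssd_exists_model M v
  obtain ⟨E₃', hE₃', hdescv'⟩ := ssd_exists_model M v'
  haveI := hE₂
  haveI := hE₃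
  haveI := hE₃'
  obtain ⟨Ea₀, hEa₀⟩ : ∃ Ea₀ : IntermediateField ℚ Qb, Ea₀ = E₁ ⊔ E₂ ⊔ E₃ ⊔ E₃' := ⟨_, rfl⟩
  haveI hfda₀ : FiniteDimensional ℚ Ea₀ := by
    rw [hEa₀]
    haveI : FiniteDimensional ℚ (E₁ ⊔ E₂ : IntermediateField ℚ Qb) := sttc_fd_sup _ _
    haveI : FiniteDimensional ℚ (E₁ ⊔ E₂ ⊔ E₃ : IntermediateField ℚ Qb) := sttc_fd_sup _ _
    exact sttc_fd_sup _ _
  obtain ⟨Ea, hEadef⟩ : ∃ Ea : IntermediateField ℚ Qb,
    Ea = IntermediateField.normalClosure ℚ Ea₀ Qb := ⟨_, rfl⟩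
  have hEa₀Ea : Ea₀ ≤ Ea := hEadef ▸ IntermediateField.le_normalClosure Ea₀
  haveI hEafd : FiniteDimensional ℚ Ea := by
    rw [hEadef]; exact normalClosure.is_finiteDimensional ℚ Ea₀ Qb
  haveI hEan : Normal ℚ Ea := by
    rw [hEadef]; exact normalClosure.normal ℚ Ea₀ Qb
  have hE₁Ea : E₁ ≤ Ea :=
    le_trans (hEa₀ ▸ (le_sup_left.trans (le_sup_left.trans le_sup_left))) hEa₀Ea
  have hE₂Ea : E₂ ≤ Ea :=
    le_trans (hEa₀ ▸ (le_sup_right.trans (le_sup_left.trans le_sup_left))) hEa₀Ea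
  have hE₃Ea : E₃ ≤ Ea := le_trans (hEa₀ ▸ (le_sup_right.trans le_sup_left)) hEa₀Ea
  have hE₃'Ea : E₃' ≤ Ea := le_trans (hEa₀ ▸ le_sup_right) hEa₀Ea
  haveI : IsDiscreteValuationRing ↥(s18dVal 𝔸 Ea) := s18d_isDVR 𝔸 Ea hA
  haveI : CharZero ↥(s18dVal 𝔸 Ea) := ⟨fun a b h => by
    have h1 := congrArg (fun x : ↥(s18dVal 𝔸 Ea) => (x : Ea)) h
    simpa using h1⟩
  obtain ⟨ϖa, hϖa⟩ := IsDiscreteValuationRing.exists_irreducible ↥(s18dVal 𝔸 Ea)
  obtain ⟨ta, hta, geoa⟩ := hgeoE Ea hE₁Ea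
  obtain ⟨ga, hga, -, -, -⟩ := hdesc Ea hE₂Ea
  obtain ⟨va, hva⟩ := hdescv Ea hE₃Ea
  obtain ⟨va', hva'⟩ := hdescv' Ea hE₃'Ea
  have hga0 : ga ≠ 0 := by
    rintro rfl
    rw [map_zero] at hga
    exact hg0 hga.symm
  obtain ⟨σa, hσa⟩ : ∃ σ, σ = ssdAut Ea (M * q) (s.restrictNormal Ea) *
    ssdAut Ea (M * q) (s.restrictNormal Ea) := ⟨_, rfl⟩
  obtain ⟨σa₀, hσa₀⟩ : ∃ σ, σ = ssdAut Ea M (s.restrictNormal Ea) *
    ssdAut Ea M (s.restrictNormal Ea) := ⟨_, rfl⟩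
  have hupa : ∀ x, ssdUp Ea (M * q) (σa • x) = σB • ssdUp Ea (M * q) x := fun x => by
    rw [hσa, hσB]; exact sttc_up_sq Ea (M * q) s x
  have hupa₀ : ∀ x, ssdUp Ea M (σa₀ • x) = σB₀ • ssdUp Ea M x := fun x => by
    rw [hσa₀, hσB₀]; exact sttc_up_sq Ea M s x
  -- the norm relations at the level `E_a`
  have hαa : sttNorm (ssvmdIncl Ea M q).toRingHom (σa • ga / ga) = (σa₀ • va / va) ^ (p ^ k) := by
    apply ssdUp_injective Ea M
    rw [(hnorm Ea _).1, sttc_map_dd (ssdUp Ea (M * q)) σa σB hupa, hga, map_pow,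
      sttc_map_dd (ssdUp Ea M) σa₀ σB₀ hupa₀, hva]
    exact hαf
  have hβa : sttNorm (ssvmfPhi Ea M q) (σa • ga / ga) = (σa₀ • va' / va') ^ (p ^ k) := by
    apply ssdUp_injective Ea M
    rw [(hnorm Ea _).2, sttc_map_dd (ssdUp Ea (M * q)) σa σB hupa, hga, map_pow,
      sttc_map_dd (ssdUp Ea M) σa₀ σB₀ hupa₀, hva']
    exact hβf
  obtain ⟨Ua, hUa0, hconga⟩ := sttc_stage_a geoa hϖa (p ^ k) hn0 ga hga0 _ _
    (by rw [← hσa]; exact hαa) (by rw [← hσa]; exact hβa)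
  rw [← hσa] at hconga
  -- STAGE B : the second number field
  obtain ⟨UB, hUB⟩ : ∃ U, U = ssdUp Ea (M * q) Ua := ⟨_, rfl⟩
  have hUB0 : UB ≠ 0 := by
    rw [hUB]
    exact (map_ne_zero_iff _ (ssdUp_injective Ea (M * q))).mpr hUa0
  obtain ⟨E₄, hE₄, hdescU⟩ := ssd_descend (M * q) 1 UB hUB0 (fun R => by
    rw [Nat.cast_one]; exact one_dvd _)
  haveI := hE₄
  -- the function whose root we extract, at the `ℚ̄`-level
  obtain ⟨HB, hHB⟩ : ∃ H, H = stTh (q ^ 2) σB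
    (sttcG2 σB (p ^ k) (g : modularFunctionFieldBar (M * q)) UB) := ⟨_, rfl⟩
  have hgD : SttcDvd Qb (p ^ k) (g : modularFunctionFieldBar (M * q)) := ⟨hg0, hdiv⟩
  have hG2D : SttcDvd Qb (p ^ k) (sttcG2 σB (p ^ k) (g : modularFunctionFieldBar (M * q)) UB) := by
    unfold sttcG2
    exact ((((hgD.smul σB).div hgD).smul σB).div ((hgD.smul σB).div hgD)).div
      (SttcDvd.pow_self (p ^ k) hUB0)
  have hHBD : SttcDvd Qb (p ^ k) HB := by
    rw [hHB]
    unfold stTh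
    exact ((((hG2D.smul σB).smul σB)).mul (hG2D.pow _)).div ((hG2D.smul σB).pow _)
  have hHB0 : HB ≠ 0 := hHBD.1
  obtain ⟨k', hk'⟩ := sttc_order_dvd (M * q) (p ^ k) HB hHBD
  obtain ⟨ζt, hζt⟩ := s18dd_exists_primitiveRoot (p ^ k) hnpos
  obtain ⟨ct, hct⟩ : ∃ c : Qb, c ^ (p ^ k) =
      ((HB : modularFunctionFieldBar (M * q)) : LaurentSeries Qb).leadingCoeff :=
    IsAlgClosed.exists_pow_nat_eq _ hnpos
  haveI hfdζ : FiniteDimensional ℚ ℚ⟮ζt⟯ := s18dd_finiteDimensional_adjoin ζt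
  haveI hfdc : FiniteDimensional ℚ ℚ⟮ct⟯ := s18dd_finiteDimensional_adjoin ct
  obtain ⟨Eb₀, hEb₀⟩ : ∃ Eb₀ : IntermediateField ℚ Qb, Eb₀ = Ea ⊔ E₄ ⊔ ℚ⟮ζt⟯ ⊔ ℚ⟮ct⟯ :=
    ⟨_, rfl⟩
  haveI hfdb₀ : FiniteDimensional ℚ Eb₀ := by
    rw [hEb₀]
    haveI : FiniteDimensional ℚ (Ea ⊔ E₄ : IntermediateField ℚ Qb) := sttc_fd_sup _ _
    haveI : FiniteDimensional ℚ (Ea ⊔ E₄ ⊔ ℚ⟮ζt⟯ : IntermediateField ℚ Qb) := sttc_fd_sup _ _
    exact sttc_fd_sup _ _
  obtain ⟨Eb, hEbdef⟩ : ∃ Eb : IntermediateField ℚ Qb,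
    Eb = IntermediateField.normalClosure ℚ Eb₀ Qb := ⟨_, rfl⟩
  have hEb₀Eb : Eb₀ ≤ Eb := hEbdef ▸ IntermediateField.le_normalClosure Eb₀
  haveI hEbfd : FiniteDimensional ℚ Eb := by
    rw [hEbdef]; exact normalClosure.is_finiteDimensional ℚ Eb₀ Qb
  haveI hEbn : Normal ℚ Eb := by
    rw [hEbdef]; exact normalClosure.normal ℚ Eb₀ Qb
  have hab : Ea ≤ Eb :=
    le_trans (hEb₀ ▸ (le_sup_left.trans (le_sup_left.trans le_sup_left))) hEb₀Eb
  have hE₄Eb : E₄ ≤ Eb :=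
    le_trans (hEb₀ ▸ (le_sup_right.trans (le_sup_left.trans le_sup_left))) hEb₀Eb
  have hζtE : ζt ∈ Eb := hEb₀Eb (hEb₀ ▸ (le_sup_left (a := Ea ⊔ E₄ ⊔ ℚ⟮ζt⟯) (b := ℚ⟮ct⟯))
    ((le_sup_right (a := Ea ⊔ E₄) (b := ℚ⟮ζt⟯)) (IntermediateField.mem_adjoin_simple_self ℚ ζt)))
  have hctE : ct ∈ Eb := hEb₀Eb (hEb₀ ▸ (le_sup_right (a := Ea ⊔ E₄ ⊔ ℚ⟮ζt⟯) (b := ℚ⟮ct⟯))
    (IntermediateField.mem_adjoin_simple_self ℚ ct))
  have hE₁Eb : E₁ ≤ Eb := hE₁Ea.trans hab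
  have hE₂Eb : E₂ ≤ Eb := hE₂Ea.trans hab
  haveI : IsDiscreteValuationRing ↥(s18dVal 𝔸 Eb) := s18d_isDVR 𝔸 Eb hA
  haveI : CharZero ↥(s18dVal 𝔸 Eb) := ⟨fun a b h => by
    have h1 := congrArg (fun x : ↥(s18dVal 𝔸 Eb) => (x : Eb)) h
    simpa using h1⟩
  obtain ⟨ϖb, hϖb⟩ := IsDiscreteValuationRing.exists_irreducible ↥(s18dVal 𝔸 Eb)
  obtain ⟨tb, htb, geob⟩ := hgeoE Eb hE₁Eb
  obtain ⟨gb, hgb, hgb1, hgb2, hgb3⟩ := hdesc Eb hE₂Eb
  obtain ⟨Ub, hUb, -, hUb2, hUb3⟩ := hdescU Eb hE₄Eb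
  have hgb0 : gb ≠ 0 := by
    rintro rfl
    rw [map_zero] at hgb
    exact hg0 hgb.symm
  have hUb0 : Ub ≠ 0 := by
    rintro rfl
    rw [map_zero] at hUb
    exact hUB0 hUb.symm
  obtain ⟨σb, hσb⟩ : ∃ σ, σ = ssdAut Eb (M * q) (s.restrictNormal Eb) *
    ssdAut Eb (M * q) (s.restrictNormal Eb) := ⟨_, rfl⟩
  have hupb : ∀ x, ssdUp Eb (M * q) (σb • x) = σB • ssdUp Eb (M * q) x := fun x => by
    rw [hσb, hσB]; exact sttc_up_sq Eb (M * q) s x
  -- the transport of the congruence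
  have htab : sttcIota hab (M * q) ta = tb := by
    apply ssdUp_injective Eb (M * q)
    rw [sttc_up_iota, hta, htb]
  have hG2ab : sttcIota hab (M * q) (sttcG2 σa (p ^ k) ga Ua) = sttcG2 σb (p ^ k) gb Ub := by
    apply ssdUp_injective Eb (M * q)
    rw [sttc_up_iota, sttc_map_g2 (ssdUp Ea (M * q)) σa σB hupa,
      sttc_map_g2 (ssdUp Eb (M * q)) σb σB hupb, hga, hgb, hUb, hUB]
  have hcongb : S18DvdGauss hϖb tb (sttcG2 σb (p ^ k) gb Ub - 1) := by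
    rw [← htab, ← hG2ab]
    exact sttc_dvdGauss_iota hab 𝔸 (M * q) hϖa hϖb ta _ hconga
  -- the series whose root we extract
  obtain ⟨Hb, hHb⟩ : ∃ H, H = stTh (q ^ 2) σb (sttcG2 σb (p ^ k) gb Ub) := ⟨_, rfl⟩
  have hupH : ssdUp Eb (M * q) Hb = HB := by
    rw [hHb, hHB, sttc_map_th (ssdUp Eb (M * q)) σb σB hupb,
      sttc_map_g2 (ssdUp Eb (M * q)) σb σB hupb, hgb, hUb]
  have hser : s18dUp Eb (Hb : LaurentSeries Eb) =
      ((HB : modularFunctionFieldBar (M * q)) : LaurentSeries Qb) :=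
    congrArg Subtype.val hupH
  have hHb0 : (Hb : LaurentSeries Eb) ≠ 0 := by
    intro h0
    apply hHB0
    apply Subtype.ext
    rw [← hser, h0, map_zero]
    rfl
  have hord : (Hb : LaurentSeries Eb).order =
      ((HB : modularFunctionFieldBar (M * q)) : LaurentSeries Qb).order := by
    rw [← hser, s18dd_order_coeffMap]
  have hcE : (⟨ct, hctE⟩ : Eb) ^ (p ^ k) =
      (Hb : LaurentSeries Eb).coeff (Hb : LaurentSeries Eb).order := by
    apply (algebraMap Eb Qb).injective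
    rw [map_pow]
    show ct ^ (p ^ k) = _
    rw [hct, HahnSeries.leadingCoeff_eq, ← hser, s18dd_order_coeffMap, coeffMap_coeff]
  have hnE : ((p ^ k : ℕ) : Eb) ≠ 0 := Nat.cast_ne_zero.mpr hn0
  obtain ⟨y, hy⟩ := s18dd_exists_root (p ^ k) hn0 hnE (Hb : LaurentSeries Eb) hHb0 k'
    (by rw [hord, hk']) ⟨ct, hctE⟩ hcE
  -- the root of unity in `𝔸 ∩ E_b`
  have hζtA : ζt ∈ 𝔸 := sstc_mem_of_pow_eq_one 𝔸 hn0 hζt.pow_eq_one
  obtain ⟨ζA, hζA⟩ : ∃ z : ↥(s18dVal 𝔸 Eb), algebraMap Eb Qb (z : Eb) = ζt :=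
    ⟨⟨⟨ζt, hζtE⟩, hζtA⟩, rfl⟩
  have hζAprim : IsPrimitiveRoot ζA (p ^ k) := by
    have hinj : Function.Injective
        ((algebraMap Eb Qb).comp (s18dVal 𝔸 Eb).subtype : ↥(s18dVal 𝔸 Eb) →+* Qb) :=
      (algebraMap Eb Qb).injective.comp Subtype.val_injective
    refine IsPrimitiveRoot.of_map_of_injective (f := ((algebraMap Eb Qb).comp
      (s18dVal 𝔸 Eb).subtype : ↥(s18dVal 𝔸 Eb) →+* Qb)) ?_ hinj
    show IsPrimitiveRoot (algebraMap Eb Qb (ζA : Eb)) (p ^ k)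
    rw [hζA]
    exact hζt
  have hnu : IsUnit ((p ^ k : ℕ) : ↥(s18dVal 𝔸 Eb)) := by
    rw [Nat.cast_pow]
    exact (sstc_isUnit_natCast 𝔸 Eb hp hq hqp hA).pow k
  -- the abstract toric theorem over `E_b`
  have hyF : y ∈ modularFunctionFieldFullC Eb (M * q) :=
    sttc_stage_b geob hϖb (p ^ k) hnu ζA hζAprim gb Ub ⟨hgb0, hgb1⟩ ⟨hgb2, hgb3⟩ hUb0
      ⟨hUb2, hUb3⟩ (by rw [← hσb]; exact hcongb) y (by rw [← hσb, ← hHb]; exact hy)
  -- conclusion
  refine ⟨ssdUp Eb (M * q) ⟨y, hyF⟩ * stTh (q ^ 2) σB UB, ?_⟩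
  have hyH : (⟨y, hyF⟩ : modularFunctionFieldFullC Eb (M * q)) ^ (p ^ k) = Hb :=
    Subtype.ext hy
  rw [mul_pow, ← map_pow, hyH, hupH, hHB, hσB]
  have hid := sttc_main_identity (arithmeticGalois (modularFunctionFieldFull (M * q)) s) q (p ^ k)
    g (Units.mk0 UB hUB0)
  rw [Units.val_mk0] at hid
  exact hid

end Fermat.Agent.ST
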