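import Mathlib
import Fermat.Agent.ST.Top.Geo
import Fermat.Agent.G.S37.Pull
import Fermat.Agent.S18.A.ConstCore

/-!
# Program T (S35), package TOP : from the function-level core `StCore` to divisor classes

`st_new_kill` : `StCore M p q` implies that `P_T(s) = (s² - q²)(s² - 1)³` kills the `p`-power torsion
of `ker α_* ⊓ ker φ_* ⊆ J₀(M q)` for every Frobenius lift `s` at a place over `q`;
`st_new_kill_phi` : the same in the operator shape `((s² - 1)(s² - q²))³` of the kill box.

* `sttk_norm_of_push_eq_zero` (PRINC) : if `m D = div g` and the push-forward of the class of `D` along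
  `φ` vanishes then the norm of `g` along `φ` is an `m`-th power (constants are `m`-th powers).
-/

set_option autoImplicit false
set_option linter.unusedSectionVars false
set_option linter.unusedVariables false
set_option linter.style.haveILetI false
set_option synthInstance.maxHeartbeats 400000

noncomputable section

namespace Fermat.Agent.ST

open ModularCurve AlgebraicCurve IntermediateField Polynomial Fermat.Agent.S18 Fermat.Agent.SS
  Fermat.Agent.G Fermat.Agent.S24

local notation "Qb" => AlgebraicClosure ℚ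
local notation "GQ" => (AlgebraicClosure ℚ ≃ₐ[ℚ] AlgebraicClosure ℚ)

/-! ### (PRINC) : vanishing push-forward ⟹ the norm is a power -/

section Princ

variable {K F F' : Type*} [Field K] [Field F] [Field F'] [Algebra K F] [Algebra K F']

/-- (PRINC) if `m D = div g` and the push-forward of the class of `D` along `φ` vanishes, then the
norm of `g` along `φ` is an `m`-th power. -/
theorem sttk_norm_of_push_eq_zero [IsAlgClosed K] (φ : F →ₐ[K] F') (hφ : φ.toRingHom.IsIntegral)
    (hfin : FiniteAlong K φ) (hN : NormFormulaAlong K φ hfin)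
    (hconst : ∀ ψ : F, (∀ v : Place K F, v.ord ψ = 0) → ∃ c : K, ψ = algebraMap K F c)
    (D : Divisor.degZero (K := K) (F := F')) (m : ℕ) (hm : m ≠ 0) (g : F') (hg0 : g ≠ 0)
    (hgD : ∀ w : Place K F', w.ord g = (m : ℤ) * (D : Divisor K F') w)
    (hpush : g37pPushAlong φ hφ hfin hN (Pic0.mk D) = 0) :
    ∃ v : F, sttNorm φ.toRingHom g = v ^ m := by
  -- the pushed divisor is principal
  rw [g37pPushAlong_mk] at hpush
  have hprin : ((g37pDegZeroPush φ hφ D : Divisor.degZero (K := K) (F := F)) : Divisor K F) ∈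
      Divisor.principal := by
    have := (QuotientAddGroup.eq_zero_iff _).mp hpush
    simpa [AddSubgroup.mem_addSubgroupOf] using this
  obtain ⟨v₀, hv₀, hv₀D⟩ := hprin
  rw [coe_g37pDegZeroPush] at hv₀D
  -- the norm formula
  letI := algebraAlong φ
  haveI := isScalarTower_along φ
  haveI := isIntegral_along φ hφ
  haveI : Module.Finite F F' := hfin
  have hNF : Divisor.PushforwardNormFormula K F F' := hN
  have hmD : ∀ w : Place K F', ((m : ℤ) • (D : Divisor K F')) w = w.ord g := by
    intro w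
    rw [Finsupp.smul_apply, hgD w, smul_eq_mul]
  have hord : ∀ v : Place K F, v.ord (Algebra.norm F g) = (m : ℤ) * v.ord v₀ := by
    intro v
    rw [← hNF g hg0 ((m : ℤ) • (D : Divisor K F')) hmD v, map_zsmul, Finsupp.smul_apply,
      smul_eq_mul]
    congr 1
    exact hv₀D v
  have hnorm0 : Algebra.norm F g ≠ 0 := by
    rw [Ne, Algebra.norm_eq_zero_iff]
    exact hg0
  -- the quotient is a constant
  have hv₀m : v₀ ^ m ≠ 0 := pow_ne_zero m hv₀
  obtain ⟨c, hc⟩ := hconst (Algebra.norm F g / v₀ ^ m) (fun v => by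
    rw [div_eq_mul_inv, Place.ord_mul _ hnorm0 (inv_ne_zero hv₀m), Place.ord_inv, hord v,
      ← zpow_natCast, Place.ord_zpow]
    push_cast
    ring)
  obtain ⟨c₁, hc₁⟩ := IsAlgClosed.exists_pow_nat_eq c (Nat.pos_of_ne_zero hm)
  refine ⟨algebraMap K F c₁ * v₀, ?_⟩
  show Algebra.norm F g = _
  rw [mul_pow, ← map_pow, hc₁, ← hc, div_mul_cancel₀ _ hv₀m]

end Princ

/-! ### polynomial identities -/

/-- `((X² - 1)(X² - q²))³ = (X² - q²)² · P_T` -/
theorem sttk_phi_cube (q : ℕ) :
    ((X * X - 1) * (X * X - C (((q ^ 2 : ℕ) : ℤ)))) ^ 3 =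
      (X ^ 2 - C ((q : ℤ) ^ 2)) ^ 2 * sttPT q := by
  unfold sttPT
  push_cast
  ring

section Modular

variable (M : ℕ) [NeZero M] (q : ℕ) [NeZero q]

/-- the Galois endomorphism of `J₀(N)` is the endomorphism attached to the arithmetic semilinear
automorphism -/
theorem sttk_end_eq (N : ℕ) (s : GQ) :
    DistribMulAction.toAddMonoidEnd GQ (JZero N) s =
      staEnd (arithmeticGalois (modularFunctionFieldFull N) s) := by
  apply AddMonoidHom.ext
  intro x
  rfl

/-- a function of `F_ℚ̄(M)` without zeros and poles is a constant -/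
theorem sttk_const (ψ : modularFunctionFieldBar M)
    (h : ∀ v : Place Qb (modularFunctionFieldBar M), v.ord ψ = 0) :
    ∃ c : Qb, ψ = algebraMap Qb (modularFunctionFieldBar M) c :=
  s18ac_const_of_isSepGen (modularFunctionFieldBar M) (isSepGen_jBar M) ψ h

/-- **(T) in polynomial form** : `StCore` implies that `P_T(s)` kills the `p`-power torsion of
`ker α_* ⊓ ker φ_*`. -/
theorem st_new_kill (p : ℕ) (hp : p.Prime) (h : StCore M p q)
    (hNβ : NormFormulaAlong Qb (heckeBetaBar Qb M q) (gff_beta_finite M q))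
    (𝔸 : ValuationSubring Qb) (hA : 𝔸.LiesOverPrime q) (s : GQ) (hs : 𝔸.IsFrobeniusAt s q)
    (x : JZero (M * q)) (hxα : g37pPush M q x = 0)
    (hxβ : g37pPushAlong (heckeBetaBar Qb M q) (gff_beta_integral M q) (gff_beta_finite M q) hNβ
      x = 0)
    (hx : ∃ n : ℕ, p ^ n • x = 0) :
    staEval (DistribMulAction.toAddMonoidEnd GQ (JZero (M * q)) s) (sttPT q) x = 0 := by
  obtain ⟨n, hn⟩ := hx
  obtain ⟨D, rfl⟩ := Pic0.mk_surjective x
  obtain ⟨g, hg0, hgD⟩ := sstk_exists_fun D (p ^ n) hn
  have hm : p ^ n ≠ 0 := pow_ne_zero n hp.ne_zero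
  obtain ⟨v, hv⟩ := sttk_norm_of_push_eq_zero (heckeAlphaBar Qb M q) (gff_alpha_integral M q)
    (gff_alpha_finite M q) (g37p_alpha_normFormula M q) (sttk_const M) D (p ^ n) hm g hg0 hgD hxα
  obtain ⟨v', hv'⟩ := sttk_norm_of_push_eq_zero (heckeBetaBar Qb M q) (gff_beta_integral M q)
    (gff_beta_finite M q) hNβ (sttk_const M) D (p ^ n) hm g hg0 hgD hxβ
  obtain ⟨y, hy⟩ := h 𝔸 hA s hs n (Units.mk0 g hg0) (fun P => ⟨_, hgD P⟩) v v' hv hv'
  rw [sttk_end_eq]
  exact sta_abstract _ (sttPT q) D (p ^ n) hm (Units.mk0 g hg0) y hgD hy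

/-- **(T) in the operator shape of the kill box** : `((s² - 1)(s² - q²))³` kills the `p`-power torsion
of `ker α_* ⊓ ker φ_*`. -/
theorem st_new_kill_phi (p : ℕ) (hp : p.Prime) (h : StCore M p q)
    (hNβ : NormFormulaAlong Qb (heckeBetaBar Qb M q) (gff_beta_finite M q))
    (𝔸 : ValuationSubring Qb) (hA : 𝔸.LiesOverPrime q) (s : GQ) (hs : 𝔸.IsFrobeniusAt s q)
    (x : JZero (M * q)) (hxα : g37pPush M q x = 0)
    (hxβ : g37pPushAlong (heckeBetaBar Qb M q) (gff_beta_integral M q) (gff_beta_finite M q) hNβ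
      x = 0)
    (hx : ∃ n : ℕ, p ^ n • x = 0) :
    ((((DistribMulAction.toAddMonoidEnd GQ (JZero (M * q)) s *
          DistribMulAction.toAddMonoidEnd GQ (JZero (M * q)) s - 1) *
        (DistribMulAction.toAddMonoidEnd GQ (JZero (M * q)) s *
          DistribMulAction.toAddMonoidEnd GQ (JZero (M * q)) s -
            ((q ^ 2 : ℕ) : AddMonoid.End (JZero (M * q))))) ^ 3 :
      AddMonoid.End (JZero (M * q)))) x = 0 := by
  have h0 := st_new_kill M q p hp h hNβ 𝔸 hA s hs x hxα hxβ hx
  set e : AddMonoid.End (JZero (M * q)) := DistribMulAction.toAddMonoidEnd GQ (JZero (M * q)) s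
    with he
  have h1 : ((e * e - 1) * (e * e - ((q ^ 2 : ℕ) : AddMonoid.End (JZero (M * q))))) ^ 3 =
      staEval e (((X * X - 1) * (X * X - C (((q ^ 2 : ℕ) : ℤ)))) ^ 3) := by
    unfold staEval
    rw [map_pow, map_mul, map_sub, map_sub, map_mul, aeval_X, map_one, aeval_C,
      algebraMap_int_eq, eq_intCast, Int.cast_natCast]
  rw [h1, sttk_phi_cube, sta_eval_mul, h0, map_zero]

end Modular

end Fermat.Agent.ST
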