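import Mathlib
import Fermat.Agent.ST.Top.Core
import Fermat.Agent.ST.Top.Kill
import Fermat.Agent.S35.Push.Descend
import Fermat.Agent.S35.AuxNew.Final
import Fermat.Agent.S35.Asm

/-!
# Program T (S35), package TOP : the kill box from the concrete side

`st_killBox_of_geo` : the concrete side `SttGeoAt M q` (chart `j` for `q ≥ 5`, chart `h_a` for
`q ∈ {2,3}`, `a = 5 - q ∣ M`) gives helper2's `S35asmKillBox lam` (with `m = 3`).

* `q ≥ 5` : `st_core_of_geo` + `st_new_kill_phi` at level `M' q`;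
* `q ∈ {2,3}`, `a := 5 - q` : if `a ∣ M'` the same at level `M' q` in the chart `h_a`; otherwise the
  same at level `(M' a) q` and helper29's (AUX-NEW) transfer `s35e_killBox_two/_three`.
-/

set_option autoImplicit false
set_option linter.unusedSectionVars false
set_option linter.unusedVariables false
set_option linter.style.haveILetI false
set_option synthInstance.maxHeartbeats 400000

noncomputable section

namespace Fermat.Agent.ST

open ModularCurve AlgebraicCurve Polynomial Fermat.Agent.S24 Fermat.Agent.G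

local notation "Qb" => AlgebraicClosure ℚ
local notation "GQ" => (AlgebraicClosure ℚ ≃ₐ[ℚ] AlgebraicClosure ℚ)

/-- (G4) : the norms along `α`, `φ` commute with the base change `E → ℚ̄` (helper7). -/
theorem sttc_normUp (M q : ℕ) [NeZero M] [NeZero q] : SttNormUp M q :=
  Fermat.Agent.SS.s35wd_normUp M q

/-- the concrete side in the chart `j` : all `q ≥ 5`. -/
def SttGeoJ : Prop :=
  ∀ (M q : ℕ) [NeZero M] [NeZero q], q.Prime → ¬ q ∣ M → 5 ≤ q → SttGeoAt M q

/-- the concrete side in the chart `h_a`, `a = 5 - q ∣ M` : `q ∈ {2, 3}`. -/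
def SttGeoH : Prop :=
  ∀ (M q : ℕ) [NeZero M] [NeZero q], ¬ q ∣ M → (q = 2 ∧ 3 ∣ M ∨ q = 3 ∧ 2 ∣ M) → SttGeoAt M q

/-- the kill at ONE level from the concrete side at that level -/
theorem sttc_kill_of_geoAt (M q : ℕ) [NeZero M] [NeZero q] (hq : q.Prime) (lam : ℕ)
    (hlam : lam.Prime) (hqlam : q ≠ lam) (hgeo : SttGeoAt M q)
    (hNβ : NormFormulaAlong Qb (heckeBetaBar Qb M q) (gff_beta_finite M q))
    (A : ValuationSubring Qb) (hA : A.LiesOverPrime q) (s : GQ) (hs : A.IsFrobeniusAt s q)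
    (x : JZero (M * q)) (hxα : g37pPush M q x = 0)
    (hxβ : g37pPushAlong (heckeBetaBar Qb M q) (gff_beta_integral M q) (gff_beta_finite M q) hNβ
      x = 0)
    (hx : ∃ n : ℕ, lam ^ n • x = 0) :
    (s35asmPhi (DistribMulAction.toAddMonoidEnd GQ (JZero (M * q)) s) q ^ 3) x = 0 :=
  st_new_kill_phi M q lam hlam (st_core_of_geo M lam q hlam hq hqlam hgeo (sttc_normUp M q)) hNβ
    A hA s hs x hxα hxβ hx

/-- **THE KILL BOX from the concrete side.** -/
theorem st_killBox_of_geo (hJ : SttGeoJ) (hH : SttGeoH) (lam : ℕ) [Fact lam.Prime] :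
    S35asmKillBox lam := by
  intro M' q _ _ hq hqM hqlam A hA s hs
  have hlam : lam.Prime := Fact.out
  refine ⟨3, fun x hx hxl => ?_⟩
  rcases Nat.lt_or_ge q 5 with h5 | h5
  · have h2 := hq.two_le
    interval_cases q
    · -- `q = 2`
      by_cases h3M : 3 ∣ M'
      · rw [mem_s35asmNewAt] at hx
        exact sttc_kill_of_geoAt M' 2 hq lam hlam hqlam (hH M' 2 hqM (Or.inl ⟨rfl, h3M⟩))
          (s35asm_beta_normFormula M' 2) A hA s hs x hx.1 hx.2 hxl
      · have hqM3 : ¬ 2 ∣ M' * 3 := fun h =>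
          (Nat.Prime.dvd_mul Nat.prime_two).mp h |>.elim hqM (by decide)
        refine s35e_killBox_two hqM h3M hlam (Ne.symm hqlam) s 3 ?_ hx hxl
        intro y hy hyl
        rw [s35w_mem_new] at hy
        exact sttc_kill_of_geoAt (M' * 3) 2 hq lam hlam hqlam
          (hH (M' * 3) 2 hqM3 (Or.inl ⟨rfl, dvd_mul_left 3 M'⟩))
          (s35w_beta_normFormula (M' * 3) 2) A hA s hs y hy.1 hy.2 hyl
    · -- `q = 3`
      by_cases h2M : 2 ∣ M'
      · rw [mem_s35asmNewAt] at hx
        exact sttc_kill_of_geoAt M' 3 hq lam hlam hqlam (hH M' 3 hqM (Or.inr ⟨rfl, h2M⟩))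
          (s35asm_beta_normFormula M' 3) A hA s hs x hx.1 hx.2 hxl
      · have hqM2 : ¬ 3 ∣ M' * 2 := fun h =>
          (Nat.Prime.dvd_mul Nat.prime_three).mp h |>.elim hqM (by decide)
        refine s35e_killBox_three h2M hqM hlam (Ne.symm hqlam) s 3 ?_ hx hxl
        intro y hy hyl
        rw [s35w_mem_new] at hy
        exact sttc_kill_of_geoAt (M' * 2) 3 hq lam hlam hqlam
          (hH (M' * 2) 3 hqM2 (Or.inr ⟨rfl, dvd_mul_left 2 M'⟩))
          (s35w_beta_normFormula (M' * 2) 3) A hA s hs y hy.1 hy.2 hyl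
    · exact absurd hq (by decide)
  · rw [mem_s35asmNewAt] at hx
    exact sttc_kill_of_geoAt M' q hq lam hlam hqlam (hJ M' q hq hqM h5)
      (s35asm_beta_normFormula M' q) A hA s hs x hx.1 hx.2 hxl

end Fermat.Agent.ST
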